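/-
S44 cell [D1] DICH-NF (helper14), file 1: the two facts of `ssm_tv_main` that `ssm_tw_core`
(SS/Model/TwoValW.lean) does not export, in the valuation-subring + Atkin–Lehner vocabulary:

* `s44dn_core` : `𝔪_R S = P2 * P1` and `Tr_{S/R}(s) ≡ s mod P1`, where `S = integralClosure R E`,
  `P1 = centre V1` (the `(1,1)` prime), `P2 = centre (V1.comap W)` (the inseparable prime).
-/
import Mathlib
import Fermat.Agent.SS.Model.TwoValW

set_option autoImplicit false
set_option linter.unusedSectionVars false
set_option linter.style.haveILetI false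

open IsLocalRing

namespace Fermat.Agent.S44

open Fermat.Agent.SS Fermat.Agent.JT3

section Core

variable {K : Type*} {E : Type*} [Field K] [Field E] [Algebra K E] [FiniteDimensional K E]
  [Algebra.IsSeparable K E]
  {R : Type*} [CommRing R] [IsDomain R] [IsDiscreteValuationRing R] [Algebra R K]
  [IsFractionRing R K] [Algebra R E] [IsScalarTower R K E]
  {q : ℕ} {V1 : ValuationSubring E} {W : E ≃+* E} {lam : R}

include K in
/-- the product decomposition and the trace congruence of `ssm_tv_main` for the two centres. -/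
theorem s44dn_core (D : ssm_tw_Data K R q V1 W lam) :
    (maximalIdeal R).map (algebraMap R ↥(integralClosure R E)) =
      ssm_tw_centre K R (V1.comap (W : E →+* E)) (ssm_tw_over2 D) *
        ssm_tw_centre K R V1 D.over1 ∧
    ∀ s : ↥(integralClosure R E),
      algebraMap R ↥(integralClosure R E) (Algebra.trace R ↥(integralClosure R E) s) - s ∈
        ssm_tw_centre K R V1 D.over1 := by
  obtain ⟨hD, hF, hfin, hfree, hrk⟩ := ssm_tw_inst K (E := E) R
  haveI := hD
  haveI := hfin
  haveI := hfree
  have hinj : Function.Injective (algebraMap R E) := by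
    rw [IsScalarTower.algebraMap_eq R K E]
    exact (algebraMap K E).injective.comp (IsFractionRing.injective R K)
  haveI : FaithfulSMul R E := (faithfulSMul_iff_algebraMap_injective R E).2 hinj
  haveI : Module.IsTorsionFree R E := inferInstance
  haveI : Module.IsTorsionFree R ↥(integralClosure R E) := inferInstance
  have hp0 : maximalIdeal R ≠ ⊥ := IsDiscreteValuationRing.not_a_field R
  have hV2 := ssm_tw_over2 D
  haveI hP1 : (ssm_tw_centre K R V1 D.over1).IsPrime := ssm_tw_centre_isPrime D.over1
  haveI hP2 : (ssm_tw_centre K R (V1.comap (W : E →+* E)) hV2).IsPrime :=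
    ssm_tw_centre_isPrime hV2
  haveI : (ssm_tw_centre K R V1 D.over1).LiesOver (maximalIdeal R) :=
    ⟨(ssm_tw_comap_centre D.over1).symm⟩
  haveI : (ssm_tw_centre K R (V1.comap (W : E →+* E)) hV2).LiesOver (maximalIdeal R) :=
    ⟨(ssm_tw_comap_centre hV2).symm⟩
  have hWl_mem : W (algebraMap R E lam) ∈ V1.comap (W : E →+* E) := by
    rw [ValuationSubring.mem_comap]
    show W (W (algebraMap R E lam)) ∈ V1
    rw [D.invol]
    exact ssm_tw_over_mem D.over1 lam
  obtain ⟨t, ht⟩ := ssm_tw_exists_lift hV2 _ hWl_mem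
  have hchar : (q : ↥(integralClosure R E)) ∈
      ssm_tw_centre K R (V1.comap (W : E →+* E)) hV2 := by
    have h1 : (q : ↥(integralClosure R E)) = algebraMap R ↥(integralClosure R E) (q : R) := by
      simp
    rw [h1]
    exact ssm_tw_map_le_centre hV2 (Ideal.mem_map_of_mem _ D.q_mem)
  have ht1 : t ^ q - algebraMap R ↥(integralClosure R E) lam ∈
      ssm_tw_centre K R (V1.comap (W : E →+* E)) hV2 := by
    rw [ssm_tw_mem_centre]
    have e1 : ((t ^ q - algebraMap R ↥(integralClosure R E) lam : ↥(integralClosure R E)) : E) =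
        ((t : E) ^ q - W (algebraMap R E lam) ^ q) +
          (W (algebraMap R E lam) ^ q - algebraMap R E lam) := by
      push_cast
      ring
    rw [e1]
    refine ssm_tw_nonunits_add _
      (ssm_tw_nonunits_pow_sub _ (ssm_tw_le hV2 t.1 t.2) hWl_mem ht q) ?_
    have := ssm_tw_nonunits_neg _ (ssm_tw_frob2 D)
    rwa [neg_sub] at this
  have ht2 : ∀ r : R, t - algebraMap R ↥(integralClosure R E) r ∉
      ssm_tw_centre K R (V1.comap (W : E →+* E)) hV2 := by
    intro r hr
    rw [ssm_tw_mem_centre] at hr
    have h1 : W (algebraMap R E lam) - algebraMap R E r ∈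
        (V1.comap (W : E →+* E)).nonunits := by
      have h2 := ssm_tw_nonunits_sub _ hr ht
      have e2 : ((t - algebraMap R ↥(integralClosure R E) r : ↥(integralClosure R E)) : E) -
          ((t : E) - W (algebraMap R E lam)) = W (algebraMap R E lam) - algebraMap R E r := by
        push_cast
        ring
      rwa [e2] at h2
    rw [ssm_tw_nonunits_comap, map_sub, D.invol] at h1
    exact D.nres r h1
  obtain ⟨-, -, Q2, hQ2p, hQ2o, hne, -, -, hall, hmap, -, -, -, htr⟩ :=
    ssm_tv_main (maximalIdeal R) hp0 D.q_prime (hrk.trans D.finrank_eq)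
      (ssm_tw_centre K R (V1.comap (W : E →+* E)) hV2) hchar t lam ht1 ht2
  have hP1ne : ssm_tw_centre K R V1 D.over1 ≠
      ssm_tw_centre K R (V1.comap (W : E →+* E)) hV2 := fun h =>
    ssm_tw_ne D (ssm_tw_eq_of_centre_eq D.over1 hV2 h)
  have hP1eq : ssm_tw_centre K R V1 D.over1 = Q2 :=
    (hall _ inferInstance inferInstance).resolve_left hP1ne
  refine ⟨?_, ?_⟩
  · rw [hmap, hP1eq]
  · intro s
    rw [hP1eq, ← Algebra.intTrace_eq_trace]
    exact htr s

end Core

end Fermat.Agent.S44
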