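/-
S44 cell [D1] DICH-NF (helper14), file 2: the bridge between the adic valuation of the centre of a
valuation subring `V` over `R` on `S = integralClosure R E` and `V` itself:

* `s44dn_spec`          : the centre of `V` as a `HeightOneSpectrum S`;
* `s44dn_val_le_one_iff`: `v x ≤ 1 ↔ x ∈ V`;  `s44dn_val_lt_one_iff`: `v x < 1 ↔ x ∈ 𝔪(V)`;
* `s44dn_val_unif`      : if `π ∈ R` generates `𝔪(V)` then `v π = exp (-1)`;
* `s44dn_val_le_exp_iff`: then `v x ≤ exp (-n) ↔ ∃ b ∈ V, x = π ^ n * b`.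
-/
import Mathlib
import Fermat.Agent.SS.Model.TwoValW

set_option autoImplicit false
set_option linter.unusedSectionVars false
set_option linter.style.haveILetI false

open IsLocalRing IsDedekindDomain WithZero

namespace Fermat.Agent.S44

open Fermat.Agent.SS Fermat.Agent.JT3

section Bridge

variable {K : Type*} {E : Type*} [Field K] [Field E] [Algebra K E] [FiniteDimensional K E]
  [Algebra.IsSeparable K E]
  {R : Type*} [CommRing R] [IsDomain R] [IsDiscreteValuationRing R] [Algebra R K]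
  [IsFractionRing R K] [Algebra R E] [IsScalarTower R K E]
  [IsDedekindDomain ↥(integralClosure R E)] [IsFractionRing ↥(integralClosure R E) E]

/-- the centre of a valuation subring over `R` as a height-one prime of the integral closure. -/
noncomputable def s44dn_spec {V : ValuationSubring E} (hV : ssm_tw_Over K R V) :
    HeightOneSpectrum ↥(integralClosure R E) :=
  ⟨ssm_tw_centre K R V hV, ssm_tw_centre_isPrime hV, ssm_tw_centre_ne_bot hV⟩

theorem s44dn_spec_asIdeal {V : ValuationSubring E} (hV : ssm_tw_Over K R V) :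
    (s44dn_spec hV).asIdeal = ssm_tw_centre K R V hV := rfl

theorem s44dn_val_coe_le_one {V : ValuationSubring E} (hV : ssm_tw_Over K R V)
    (s : ↥(integralClosure R E)) : (s44dn_spec hV).valuation E (s : E) ≤ 1 :=
  (s44dn_spec hV).valuation_le_one s

theorem s44dn_val_coe_eq_one {V : ValuationSubring E} (hV : ssm_tw_Over K R V)
    (t : ↥(integralClosure R E)) (ht : t ∉ ssm_tw_centre K R V hV) :
    (s44dn_spec hV).valuation E (t : E) = 1 :=
  (HeightOneSpectrum.valuation_eq_one_iff_notMem (v := s44dn_spec hV) (K := E)).2 ht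

theorem s44dn_val_coe_lt_one {V : ValuationSubring E} (hV : ssm_tw_Over K R V)
    (s : ↥(integralClosure R E)) (hs : s ∈ ssm_tw_centre K R V hV) :
    (s44dn_spec hV).valuation E (s : E) < 1 :=
  ((s44dn_spec hV).valuation_lt_one_iff_mem s).2 hs

theorem s44dn_val_le_one_of_mem {V : ValuationSubring E} (hV : ssm_tw_Over K R V) {b : E}
    (hb : b ∈ V) : (s44dn_spec hV).valuation E b ≤ 1 := by
  obtain ⟨x, t, ht, hxt⟩ := (ssm_tw_bridge hV b).1 hb
  have h1 := s44dn_val_coe_eq_one hV t ht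
  have h2 := s44dn_val_coe_le_one hV x
  rw [← hxt, map_mul, h1, mul_one] at h2
  exact h2

theorem s44dn_val_lt_one_of_mem {V : ValuationSubring E} (hV : ssm_tw_Over K R V) {a : E}
    (ha : a ∈ V.nonunits) : (s44dn_spec hV).valuation E a < 1 := by
  obtain ⟨x, t, ht, hxt⟩ := (ssm_tw_bridge hV a).1 (ssm_tw_nonunits_le V ha)
  have hx : x ∈ ssm_tw_centre K R V hV := by
    rw [ssm_tw_mem_centre, ← hxt, mul_comm]
    exact ssm_tw_nonunits_mul V (ssm_tw_le hV t.1 t.2) ha
  have h1 := s44dn_val_coe_eq_one hV t ht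
  have h2 := s44dn_val_coe_lt_one hV x hx
  rw [← hxt, map_mul, h1, mul_one] at h2
  exact h2

theorem s44dn_val_le_one_iff {V : ValuationSubring E} (hV : ssm_tw_Over K R V) (y : E) :
    (s44dn_spec hV).valuation E y ≤ 1 ↔ y ∈ V := by
  refine ⟨fun h => ?_, s44dn_val_le_one_of_mem hV⟩
  by_contra hy
  have hy0 : y ≠ 0 := fun h0 => hy (h0 ▸ V.zero_mem)
  have h1 : y⁻¹ ∈ V.nonunits := by
    rw [ssm_tw_nonunits_iff]
    refine ⟨(V.mem_or_inv_mem y).resolve_left hy, Or.inr ?_⟩
    rwa [inv_inv]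
  have h2 := s44dn_val_lt_one_of_mem hV h1
  rw [map_inv₀] at h2
  have hv0 : (s44dn_spec hV).valuation E y ≠ 0 := (Valuation.ne_zero_iff _).2 hy0
  have h3 : 1 < (s44dn_spec hV).valuation E y := by
    rwa [inv_lt_one₀ (zero_lt_iff.2 hv0)] at h2
  exact absurd h (not_le.2 h3)

theorem s44dn_val_lt_one_iff {V : ValuationSubring E} (hV : ssm_tw_Over K R V) (y : E) :
    (s44dn_spec hV).valuation E y < 1 ↔ y ∈ V.nonunits := by
  refine ⟨fun h => ?_, s44dn_val_lt_one_of_mem hV⟩
  have hyV : y ∈ V := (s44dn_val_le_one_iff hV y).1 h.le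
  by_contra hy
  have h1 : y⁻¹ ∈ V := ssm_tw_inv_mem V hyV hy
  have h2 := s44dn_val_le_one_of_mem hV h1
  have hy0 : y ≠ 0 := by
    rintro rfl
    exact hy ((ssm_tw_nonunits_iff V 0).2 ⟨V.zero_mem, Or.inl rfl⟩)
  have hv0 : (s44dn_spec hV).valuation E y ≠ 0 := (Valuation.ne_zero_iff _).2 hy0
  rw [map_inv₀, inv_le_one₀ (zero_lt_iff.2 hv0)] at h2
  exact absurd h (not_lt.2 h2)

/-- a generator of `𝔪(V)` coming from `R` has valuation `exp (-1)`. -/
theorem s44dn_val_unif {V : ValuationSubring E} (hV : ssm_tw_Over K R V) (π : R)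
    (hunif : ∀ a : E, a ∈ V.nonunits ↔ ∃ b ∈ V, a = algebraMap R E π * b) :
    (s44dn_spec hV).valuation E (algebraMap R E π) = exp (-1 : ℤ) := by
  have hπm : algebraMap R E π ∈ V.nonunits := (hunif _).2 ⟨1, V.one_mem, (mul_one _).symm⟩
  have h1 := s44dn_val_lt_one_of_mem hV hπm
  obtain ⟨ϖ, hϖ⟩ := (s44dn_spec hV).valuation_exists_uniformizer E
  have hϖm : ϖ ∈ V.nonunits := by
    rw [← s44dn_val_lt_one_iff hV, hϖ, ← exp_zero, exp_lt_exp]
    norm_num
  obtain ⟨b, hb, hϖb⟩ := (hunif ϖ).1 hϖm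
  have h2 := s44dn_val_le_one_of_mem hV hb
  have h3 : exp (-1 : ℤ) ≤ (s44dn_spec hV).valuation E (algebraMap R E π) := by
    rw [← hϖ, hϖb, map_mul]
    exact mul_le_of_le_one_right' h2
  refine le_antisymm ?_ h3
  have hπ0 : (s44dn_spec hV).valuation E (algebraMap R E π) ≠ 0 := by
    intro h0
    rw [h0] at h3
    exact absurd h3 (not_le.2 exp_pos)
  rw [← log_le_iff_le_exp hπ0]
  have : log ((s44dn_spec hV).valuation E (algebraMap R E π)) < 0 := by
    rw [log_lt_iff_lt_exp hπ0, exp_zero]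
    exact h1
  omega

/-- **the bridge**: `v x ≤ exp (-n) ↔ x ∈ π ^ n V`. -/
theorem s44dn_val_le_exp_iff {V : ValuationSubring E} (hV : ssm_tw_Over K R V) (π : R)
    (hunif : ∀ a : E, a ∈ V.nonunits ↔ ∃ b ∈ V, a = algebraMap R E π * b) (n : ℕ) (x : E) :
    (s44dn_spec hV).valuation E x ≤ exp (-(n : ℤ)) ↔ ∃ b ∈ V, x = algebraMap R E π ^ n * b := by
  have hπ := s44dn_val_unif hV π hunif
  have hπ0 : algebraMap R E π ≠ 0 := by
    intro h0
    rw [h0, map_zero] at hπ
    exact exp_ne_zero hπ.symm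
  have hpow : (s44dn_spec hV).valuation E (algebraMap R E π ^ n) = exp (-(n : ℤ)) := by
    rw [map_pow, hπ, ← exp_nsmul]
    congr 1
    simp
  constructor
  · intro h
    refine ⟨x / algebraMap R E π ^ n, ?_, ?_⟩
    · rw [← s44dn_val_le_one_iff hV, map_div₀, hpow]
      exact div_le_one_of_le₀ h zero_le
    · field_simp
  · rintro ⟨b, hb, rfl⟩
    rw [map_mul, hpow]
    exact mul_le_of_le_one_right' (s44dn_val_le_one_of_mem hV hb)

end Bridge

end Fermat.Agent.S44
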