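/-
S44 cell [D1] DICH-NF (helper14), file 3: the dichotomy in the context of the two-valuations lemma
`ssm_tw_Data K R q V1 W lam` (SS/Model/TwoValW.lean), in valuation-subring vocabulary.

* `s44dn_D V ϖ P n f` : `f = ρ · (1 + ϖ ^ n · b)` with `ρ ∈ P`, `b ∈ V` (depth `≥ n` at `V` modulo `P`);
* `s44dn_D_iff_mem_sup` : for `n ≥ 1` this is `f ∈ P ⊔ s44d_U v (exp (-n))`, `v` the adic valuation of
  the centre of `V` (the vocabulary of helper29's `s44d_step`);
* `s44dn_D_comap`     : depth at `V1.comap W` is the depth of `W f` at `V1`;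
* `s44dn_abs`         : **the dichotomy**: `N f ∈ P'`, `N (W f) ∈ P'`, depth `≥ 1` of `f` and of `W f`
  at `V1`  ⟹  depth `≥ n` of both for every `n ≥ 1`.
-/
import Mathlib
import Fermat.Agent.S44.Dich.Main
import Fermat.Agent.S44.DichNF.Trace
import Fermat.Agent.S44.DichNF.ValBridge

set_option autoImplicit false
set_option linter.unusedSectionVars false
set_option linter.style.haveILetI false

open IsLocalRing IsDedekindDomain WithZero

namespace Fermat.Agent.S44

open Fermat.Agent.SS Fermat.Agent.JT3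

section Depth

variable {E : Type*} [Field E]

/-- depth `≥ n` at the valuation subring `V`, modulo the subgroup `P`. -/
def s44dn_D (V : ValuationSubring E) (ϖ : E) (P : Subgroup Eˣ) (n : ℕ) (f : Eˣ) : Prop :=
  ∃ ρ ∈ P, ∃ b ∈ V, (f : E) = (ρ : E) * (1 + ϖ ^ n * b)

/-- the action of a ring automorphism on units. -/
def s44dn_Wu (W : E ≃+* E) : Eˣ →* Eˣ := Units.map ((W : E →+* E) : E →* E)

@[simp] theorem s44dn_Wu_coe (W : E ≃+* E) (f : Eˣ) : ((s44dn_Wu W f : Eˣ) : E) = W (f : E) := rfl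

theorem s44dn_Wu_Wu (W : E ≃+* E) (hWW : ∀ x, W (W x) = x) (f : Eˣ) :
    s44dn_Wu W (s44dn_Wu W f) = f := Units.ext (hWW _)

theorem s44dn_D_comap_aux (V1 : ValuationSubring E) (W : E ≃+* E) {ϖ : E} (hWϖ : W ϖ = ϖ)
    (P : Subgroup Eˣ) (hWP : ∀ x ∈ P, s44dn_Wu W x ∈ P) (n : ℕ) (f : Eˣ)
    (h : s44dn_D (V1.comap (W : E →+* E)) ϖ P n f) : s44dn_D V1 ϖ P n (s44dn_Wu W f) := by
  obtain ⟨ρ, hρ, b, hb, hf⟩ := h
  refine ⟨s44dn_Wu W ρ, hWP ρ hρ, W b, hb, ?_⟩
  rw [s44dn_Wu_coe, hf, map_mul, map_add, map_one, map_mul, map_pow, hWϖ]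
  rfl

/-- depth at `V1.comap W` is the depth of `W f` at `V1`. -/
theorem s44dn_D_comap (V1 : ValuationSubring E) (W : E ≃+* E) (hWW : ∀ x, W (W x) = x) {ϖ : E}
    (hWϖ : W ϖ = ϖ) (P : Subgroup Eˣ) (hWP : ∀ x ∈ P, s44dn_Wu W x ∈ P) (n : ℕ) (f : Eˣ) :
    s44dn_D (V1.comap (W : E →+* E)) ϖ P n f ↔ s44dn_D V1 ϖ P n (s44dn_Wu W f) := by
  refine ⟨s44dn_D_comap_aux V1 W hWϖ P hWP n f, ?_⟩
  rintro ⟨ρ, hρ, b, hb, hf⟩
  refine ⟨s44dn_Wu W ρ, hWP ρ hρ, W b, ?_, ?_⟩
  · rw [ValuationSubring.mem_comap]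
    show W (W b) ∈ V1
    rwa [hWW]
  · have h1 : W (W (f : E)) = W ((ρ : E) * (1 + ϖ ^ n * b)) := by
      rw [← hf]; rfl
    rw [hWW, map_mul, map_add, map_one, map_mul, map_pow, hWϖ] at h1
    rw [h1]; rfl

end Depth

section Bridge

variable {K : Type*} {E : Type*} [Field K] [Field E] [Algebra K E] [FiniteDimensional K E]
  [Algebra.IsSeparable K E]
  {R : Type*} [CommRing R] [IsDomain R] [IsDiscreteValuationRing R] [Algebra R K]
  [IsFractionRing R K] [Algebra R E] [IsScalarTower R K E]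
  [IsDedekindDomain ↥(integralClosure R E)] [IsFractionRing ↥(integralClosure R E) E]

/-- for `n ≥ 1` the depth predicate is membership in `P ⊔ U_v^n`. -/
theorem s44dn_D_iff_mem_sup {V : ValuationSubring E} (hV : ssm_tw_Over K R V) (π : R)
    (hunif : ∀ a : E, a ∈ V.nonunits ↔ ∃ b ∈ V, a = algebraMap R E π * b) (P : Subgroup Eˣ)
    (n : ℕ) (hn : 1 ≤ n) (f : Eˣ) :
    f ∈ P ⊔ s44d_U ((s44dn_spec hV).valuation E) (exp (-(n : ℤ))) ↔
      s44dn_D V (algebraMap R E π) P n f := by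
  constructor
  · intro h
    obtain ⟨ρ, hρ, u, hu, hf⟩ := Subgroup.mem_sup.1 h
    obtain ⟨b, hb, hub⟩ := (s44dn_val_le_exp_iff hV π hunif n _).1 hu.1
    refine ⟨ρ, hρ, b, hb, ?_⟩
    rw [← hub, ← hf]
    push_cast
    ring
  · rintro ⟨ρ, hρ, b, hb, hf⟩
    have hu0 : (1 + algebraMap R E π ^ n * b : E) ≠ 0 := by
      intro h0
      rw [h0, mul_zero] at hf
      exact f.ne_zero hf
    refine Subgroup.mem_sup.2 ⟨ρ, hρ, Units.mk0 _ hu0, ?_, ?_⟩
    · have h1 : (s44dn_spec hV).valuation E (((Units.mk0 _ hu0 : Eˣ) : E) - 1) ≤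
          exp (-(n : ℤ)) := by
        rw [s44dn_val_le_exp_iff hV π hunif n]
        exact ⟨b, hb, by simp⟩
      refine ⟨h1, lt_of_le_of_lt h1 ?_⟩
      rw [← exp_zero, exp_lt_exp]
      omega
    · apply Units.ext
      rw [hf]
      rfl

end Bridge

section Main

variable {K : Type*} {E : Type*} [Field K] [Field E] [Algebra K E] [FiniteDimensional K E]
  [Algebra.IsSeparable K E]
  {R : Type*} [CommRing R] [IsDomain R] [IsDiscreteValuationRing R] [Algebra R K]
  [IsFractionRing R K] [Algebra R E] [IsScalarTower R K E]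
  {q : ℕ} {V1 : ValuationSubring E} {W : E ≃+* E} {lam : R}

include K in
/-- every height-one prime of the integral closure is one of the two centres. -/
theorem s44dn_all [IsDedekindDomain ↥(integralClosure R E)]
    [IsFractionRing ↥(integralClosure R E) E] (D : ssm_tw_Data K R q V1 W lam)
    (v : HeightOneSpectrum ↥(integralClosure R E)) :
    v = s44dn_spec (ssm_tw_over2 D) ∨ v = s44dn_spec D.over1 := by
  obtain ⟨-, -, -, hall, -, -⟩ := ssm_tw_core D
  have hcomap : v.asIdeal.comap (algebraMap R ↥(integralClosure R E)) = maximalIdeal R := by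
    haveI : (v.asIdeal.comap (algebraMap R ↥(integralClosure R E))).IsPrime :=
      Ideal.comap_isPrime _ _
    have hne : v.asIdeal.comap (algebraMap R ↥(integralClosure R E)) ≠ ⊥ := by
      intro h0
      exact v.ne_bot (Ideal.eq_bot_of_comap_eq_bot h0)
    exact IsLocalRing.eq_maximalIdeal (Ideal.IsPrime.isMaximal inferInstance hne)
  rcases hall v.asIdeal v.isPrime hcomap with h | h
  · exact Or.inr (HeightOneSpectrum.ext h)
  · exact Or.inl (HeightOneSpectrum.ext h)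

include K in
/-- **[D1] the dichotomy, abstract two-valuations form.** -/
theorem s44dn_abs (D : ssm_tw_Data K R q V1 W lam) (π : R) (hπ : Irreducible π)
    (hWπ : W (algebraMap R E π) = algebraMap R E π)
    (P : Subgroup Eˣ) (P' : Subgroup Kˣ)
    (hPP' : ∀ x ∈ P', Units.map (algebraMap K E : K →* E) x ∈ P)
    (hNP : ∀ x ∈ P, Units.map (Algebra.norm K : E →* K) x ∈ P')
    (hWP : ∀ x ∈ P, s44dn_Wu W x ∈ P)
    (f : Eˣ) (hNf : Units.map (Algebra.norm K : E →* K) f ∈ P')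
    (hNWf : Units.map (Algebra.norm K : E →* K) (s44dn_Wu W f) ∈ P')
    (h1 : s44dn_D V1 (algebraMap R E π) P 1 f)
    (h1W : s44dn_D V1 (algebraMap R E π) P 1 (s44dn_Wu W f)) :
    ∀ n : ℕ, 1 ≤ n → s44dn_D V1 (algebraMap R E π) P n f ∧
      s44dn_D V1 (algebraMap R E π) P n (s44dn_Wu W f) := by
  obtain ⟨hD, hF, hfin, hfree, hrk⟩ := ssm_tw_inst K (E := E) R
  haveI := hD
  haveI := hF
  haveI := hfin
  haveI := hfree
  have hV2 := ssm_tw_over2 D
  obtain ⟨hmap0, htr⟩ := s44dn_core D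
  have hu1 := ssm_tw_unif1 D π hπ
  have hu2 := ssm_tw_unif2 D π hπ
  set v1 := s44dn_spec D.over1 with hv1
  set v2 := s44dn_spec hV2 with hv2
  have hne : v2 ≠ v1 := by
    intro h
    have h' : ssm_tw_centre K R (V1.comap (W : E →+* E)) hV2 = ssm_tw_centre K R V1 D.over1 :=
      congrArg HeightOneSpectrum.asIdeal h
    exact ssm_tw_ne D (ssm_tw_eq_of_centre_eq D.over1 hV2 h'.symm)
  have hall : ∀ v : HeightOneSpectrum ↥(integralClosure R E), v = v2 ∨ v = v1 := s44dn_all D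
  have hmap : Ideal.span {algebraMap R ↥(integralClosure R E) π} = v2.asIdeal * v1.asIdeal := by
    rw [← Set.image_singleton, ← Ideal.map_span, ← hπ.maximalIdeal_eq]
    exact hmap0
  have hN : ∀ s : ↥(integralClosure R E), (Algebra.norm K : E →* K)
      (algebraMap ↥(integralClosure R E) E s) = algebraMap R K (Algebra.norm R s) := by
    intro s
    haveI : IsLocalization (Algebra.algebraMapSubmonoid ↥(integralClosure R E)
        (nonZeroDivisors R)) E :=
      IsIntegralClosure.isLocalization_of_isSeparable R K E ↥(integralClosure R E)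
    exact Algebra.norm_localization R (nonZeroDivisors R) (Rₘ := K) (Sₘ := E) s
  -- translations
  have hWW := D.invol
  have t1 : ∀ (n : ℕ), 1 ≤ n → ∀ g : Eˣ,
      g ∈ P ⊔ s44d_U (v1.valuation E) (exp (-(n : ℤ))) ↔ s44dn_D V1 (algebraMap R E π) P n g :=
    fun n hn g => s44dn_D_iff_mem_sup D.over1 π hu1 P n hn g
  have t2 : ∀ (n : ℕ), 1 ≤ n → ∀ g : Eˣ,
      g ∈ P ⊔ s44d_U (v2.valuation E) (exp (-(n : ℤ))) ↔
        s44dn_D V1 (algebraMap R E π) P n (s44dn_Wu W g) := fun n hn g => by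
    rw [s44dn_D_iff_mem_sup hV2 π hu2 P n hn g]
    exact s44dn_D_comap V1 W hWW hWπ P hWP n g
  -- the step for an arbitrary `g`
  have step : ∀ g : Eˣ, Units.map (Algebra.norm K : E →* K) g ∈ P' → ∀ d : ℕ, 1 ≤ d →
      g ∈ P ⊔ s44d_U (v2.valuation E) (exp (-(d : ℤ))) →
      g ∈ P ⊔ s44d_U (v1.valuation E) (exp (-(d : ℤ))) →
      g ∈ P ⊔ s44d_U (v1.valuation E) (exp (-((d + 1 : ℕ) : ℤ))) := fun g hg d hd a b =>
    s44d_step hmap hne hall htr (Algebra.norm K : E →* K) hN P P' hPP' hNP g hg d hd a b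
  have key := s44d_dich_abs P (fun n => s44d_U (v2.valuation E) (exp (-(n : ℤ))))
    (fun n => s44d_U (v1.valuation E) (exp (-(n : ℤ)))) f
    (fun d hd a b => step f hNf d hd a b)
    (fun d hd a b => by
      rw [t2 (d + 1) (by omega)]
      rw [← t1 (d + 1) (by omega)]
      refine step (s44dn_Wu W f) hNWf d hd ?_ ?_
      · rw [t2 d hd, s44dn_Wu_Wu W hWW, ← t1 d hd]
        exact b
      · rw [t1 d hd, ← t2 d hd]
        exact a)
    ((t2 1 le_rfl f).2 h1W) ((t1 1 le_rfl f).2 h1)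
  intro n hn
  obtain ⟨k0, ki⟩ := key n hn
  exact ⟨(t1 n hn f).1 ki, (t2 n hn f).1 k0⟩

end Main

end Fermat.Agent.S44
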