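/-
S44 cell [D1] DICH-NF (helper14), file 4: **the number-field-level dichotomy for the tower
`F_M(L) ≤ F_{M q}(L)`** (`lg_F L N = modularFunctionFieldFullC L N = L(j(X^d) : d ∣ N) ⊆ L((X))`),
`q ∤ M` a prime, `O ⊆ L` a discrete valuation ring of residue characteristic `q` with uniformiser
`π`, `W = ssm_al_W` the Atkin–Lehner involution (`W z = z(X^q)` on `F_M(L)`, so `β = W ∘ α`).

`s44dn_Depth O π M q n f` : `f = c · g ^ q · (1 + π ^ n · b)`, `c ∈ Lˣ`, `g ≠ 0`, `b` Gauss-bounded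
(depth `≥ n` at the Gauss valuation `w_∞`; depth at `w_0` is the depth of `W f`).

`s44dn_main` : `N_α f = c g^q`, `N_α (W f) = c' g'^q` (i.e. `N_β f`), depth `≥ 1` of `f` and `W f`
`⟹` depth `≥ n` of `f` and `W f` for every `n ≥ 1`.
Instance of helper29's `s44d_step`/`s44d_dich_abs` through `s44dn_abs` and helper4's `rdn_gf_data`.
-/
import Mathlib
import Fermat.Agent.S44.DichNF.Abs
import Fermat.Agent.S35.RedN.InstFull

set_option autoImplicit false
set_option linter.unusedSectionVars false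
set_option linter.unusedVariables false
set_option linter.style.haveILetI false

noncomputable section

namespace Fermat.Agent.S44

open ModularCurve IntermediateField IsLocalRing
open Fermat.Agent.JT3 Fermat.Agent.SS Fermat.Agent.S35

/-! ## the subgroup `Lˣ · (Eˣ)^p` -/

section Sub

variable (L : Type*) {E : Type*} [Field L] [Field E] [Algebra L E]

/-- constants times `p`-th powers. -/
def s44dn_P (p : ℕ) : Subgroup Eˣ where
  carrier := {x | ∃ (c : Lˣ) (g : Eˣ), x = Units.map (algebraMap L E : L →* E) c * g ^ p}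
  one_mem' := ⟨1, 1, by simp⟩
  mul_mem' := by
    rintro _ _ ⟨c, g, rfl⟩ ⟨c', g', rfl⟩
    exact ⟨c * c', g * g', by rw [map_mul, mul_pow]; exact mul_mul_mul_comm _ _ _ _⟩
  inv_mem' := by
    rintro _ ⟨c, g, rfl⟩
    exact ⟨c⁻¹, g⁻¹, by rw [map_inv, inv_pow, mul_inv]⟩

variable {L}

theorem s44dn_mem_P {p : ℕ} {x : Eˣ} :
    x ∈ s44dn_P L (E := E) p ↔
      ∃ (c : Lˣ) (g : Eˣ), x = Units.map (algebraMap L E : L →* E) c * g ^ p := Iff.rfl

theorem s44dn_mem_P_of_eq {p : ℕ} {x : Eˣ} (c : L) (g : E)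
    (h : (x : E) = algebraMap L E c * g ^ p) : x ∈ s44dn_P L (E := E) p := by
  have hc : c ≠ 0 := by
    rintro rfl
    rw [map_zero, zero_mul] at h
    exact x.ne_zero h
  by_cases hg : g = 0
  · subst hg
    rcases Nat.eq_zero_or_pos p with hp | hp
    · subst hp
      exact ⟨Units.mk0 c hc, 1, Units.ext (by rw [h]; simp)⟩
    · rw [zero_pow hp.ne', mul_zero] at h
      exact absurd h x.ne_zero
  · exact ⟨Units.mk0 c hc, Units.mk0 g hg, Units.ext (by rw [h]; simp)⟩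

theorem s44dn_exists_of_mem_P {p : ℕ} {x : Eˣ} (h : x ∈ s44dn_P L (E := E) p) :
    ∃ (c : L) (g : E), c ≠ 0 ∧ g ≠ 0 ∧ (x : E) = algebraMap L E c * g ^ p := by
  obtain ⟨c, g, rfl⟩ := h
  exact ⟨c, g, c.ne_zero, g.ne_zero, by simp⟩

end Sub

/-! ## the tower -/

section Tower

variable {L : Type*} [Field L] [CharZero L] [Algebra L (AlgebraicClosure ℚ)]
  (O : ValuationSubring L) [IsDiscreteValuationRing O] {π : O} (hπ : Irreducible π)
variable (M q : ℕ) [NeZero M] [NeZero q] [hq : Fact q.Prime] [CharP (ResidueField O) q]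
  (hqM : ¬ q ∣ M)

/-- depth `≥ n` at the Gauss valuation of `F_{M q}(L)`, modulo constants and `q`-th powers. -/
def s44dn_Depth (π : O) (n : ℕ) (f : ↥(lg_F L (M * q))) : Prop :=
  ∃ (c : L) (g b : ↥(lg_F L (M * q))), c ≠ 0 ∧ g ≠ 0 ∧ gq_IsBdd O L (b : LaurentSeries L) ∧
    f = algebraMap L ↥(lg_F L (M * q)) c * g ^ q *
      (1 + algebraMap L ↥(lg_F L (M * q)) (π : L) ^ n * b)

include hπ in
/-- **[D1] DICH-NF**: the dichotomy for `F_M(L) ≤ F_{M q}(L)` at a DVR `O` of residue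
characteristic `q`. -/
theorem s44dn_main (f : ↥(lg_F L (M * q))) (hf : f ≠ 0)
    (hNα : letI := ssm_gi_algebra (ssm_al_F_le L M q)
      ∃ (c : L) (g : ↥(lg_F L M)),
        Algebra.norm ↥(lg_F L M) f = algebraMap L ↥(lg_F L M) c * g ^ q)
    (hNβ : letI := ssm_gi_algebra (ssm_al_F_le L M q)
      ∃ (c : L) (g : ↥(lg_F L M)),
        Algebra.norm ↥(lg_F L M) (rdn_gf_W L M q hqM f) = algebraMap L ↥(lg_F L M) c * g ^ q)
    (h1 : s44dn_Depth O M q π 1 f) (h1W : s44dn_Depth O M q π 1 (rdn_gf_W L M q hqM f)) :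
    ∀ n : ℕ, 1 ≤ n → s44dn_Depth O M q π n f ∧ s44dn_Depth O M q π n (rdn_gf_W L M q hqM f) := by
  letI := ssm_gi_algebra (ssm_al_F_le L M q)
  letI := ssm_gi_algebraV (ssm_al_F_le L M q)
    (gq_valSubOf π hπ.ne_zero hπ.maximalIdeal_eq (lg_F L M)
      ((ssm_al_F_le L M q).trans (rdn_gf_le_quotField O (M * q))))
  haveI := ssm_gi_isScalarTower (ssm_al_F_le L M q)
    (gq_valSubOf π hπ.ne_zero hπ.maximalIdeal_eq (lg_F L M)
      ((ssm_al_F_le L M q).trans (rdn_gf_le_quotField O (M * q))))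
  haveI := ssm_gi_isScalarTower_base (L := L) (ssm_al_F_le L M q)
  have hrank : Module.finrank ↥(lg_F L M) ↥(lg_F L (M * q)) = q + 1 := by
    have := ssm_al_relfinrank L M q hq.out hqM
    rwa [IntermediateField.relfinrank_eq_finrank_of_le (ssm_al_F_le L M q)] at this
  haveI : FiniteDimensional ↥(lg_F L M) ↥(lg_F L (M * q)) := ssm_gi_finiteDimensional hrank
  haveI : Algebra.IsSeparable ↥(lg_F L M) ↥(lg_F L (M * q)) := ssm_gi_isSeparable
  have D := rdn_gf_data O hπ M q hqM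
  set W := rdn_gf_W L M q hqM with hW
  -- the uniformiser of the Gauss ring
  set ϖ := gq_unif π hπ.ne_zero hπ.maximalIdeal_eq (lg_F L M)
    ((ssm_al_F_le L M q).trans (rdn_gf_le_quotField O (M * q))) with hϖ
  have hϖirr : Irreducible ϖ := ssm_ga_unif_irreducible π hπ.ne_zero hπ.maximalIdeal_eq _ _
  have hϖE : algebraMap _ ↥(lg_F L (M * q)) ϖ = algebraMap L ↥(lg_F L (M * q)) (π : L) := rfl
  have hWϖ : W (algebraMap _ ↥(lg_F L (M * q)) ϖ) = algebraMap _ ↥(lg_F L (M * q)) ϖ := by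
    rw [hϖE]
    exact (ssm_al_W L M q hq.out hqM).commutes _
  -- the subgroups
  set P := s44dn_P L (E := ↥(lg_F L (M * q))) q with hP
  set P' := s44dn_P L (E := ↥(lg_F L M)) q with hP'
  have hPP' : ∀ x ∈ P', Units.map (algebraMap ↥(lg_F L M) ↥(lg_F L (M * q)) :
      ↥(lg_F L M) →* ↥(lg_F L (M * q))) x ∈ P := by
    rintro _ ⟨c, g, rfl⟩
    refine ⟨c, Units.map (algebraMap ↥(lg_F L M) ↥(lg_F L (M * q)) :
      ↥(lg_F L M) →* ↥(lg_F L (M * q))) g, ?_⟩
    rw [map_mul, map_pow]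
    congr 1
  have hNP : ∀ x ∈ P, Units.map (Algebra.norm ↥(lg_F L M) :
      ↥(lg_F L (M * q)) →* ↥(lg_F L M)) x ∈ P' := by
    rintro _ ⟨c, g, rfl⟩
    refine ⟨c ^ (q + 1), Units.map (Algebra.norm ↥(lg_F L M) :
      ↥(lg_F L (M * q)) →* ↥(lg_F L M)) g, ?_⟩
    rw [map_mul, map_pow, map_pow]
    congr 1
    apply Units.ext
    show Algebra.norm ↥(lg_F L M) (algebraMap L ↥(lg_F L (M * q)) (c : L)) =
      algebraMap L ↥(lg_F L M) (c : L) ^ (q + 1)
    rw [IsScalarTower.algebraMap_apply L ↥(lg_F L M) ↥(lg_F L (M * q)), Algebra.norm_algebraMap,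
      hrank]
  have hWP : ∀ x ∈ P, s44dn_Wu W x ∈ P := by
    rintro _ ⟨c, g, rfl⟩
    refine ⟨c, s44dn_Wu W g, ?_⟩
    rw [map_mul, map_pow]
    congr 1
    apply Units.ext
    exact (ssm_al_W L M q hq.out hqM).commutes _
  -- translation of the depth predicate
  have tr : ∀ (n : ℕ) (g : ↥(lg_F L (M * q))) (hg : g ≠ 0),
      s44dn_Depth O M q π n g ↔
        s44dn_D (gq_valSubOf π hπ.ne_zero hπ.maximalIdeal_eq (lg_F L (M * q))
          (rdn_gf_le_quotField O (M * q))) (algebraMap _ ↥(lg_F L (M * q)) ϖ) P n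
          (Units.mk0 g hg) := by
    intro n g hg
    constructor
    · rintro ⟨c, g', b, hc, hg', hb, e⟩
      refine ⟨Units.mk0 (algebraMap L ↥(lg_F L (M * q)) c * g' ^ q)
        (mul_ne_zero ((map_ne_zero _).2 hc) (pow_ne_zero _ hg')),
        s44dn_mem_P_of_eq c g' rfl, b, (gq_mem_valSubOf _ _ _ _ _ _).2 hb, ?_⟩
      rw [hϖE]
      exact e
    · rintro ⟨ρ, hρ, b, hb, e⟩
      obtain ⟨c, g', hc, hg', hρe⟩ := s44dn_exists_of_mem_P hρ
      refine ⟨c, g', b, hc, hg', (gq_mem_valSubOf _ _ _ _ _ _).1 hb, ?_⟩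
      rw [← hρe, ← hϖE]
      exact e
  have hWf : W f ≠ 0 := (map_ne_zero W).2 hf
  have hNf : Units.map (Algebra.norm ↥(lg_F L M) : ↥(lg_F L (M * q)) →* ↥(lg_F L M))
      (Units.mk0 f hf) ∈ P' := by
    obtain ⟨c, g, e⟩ := hNα
    exact s44dn_mem_P_of_eq c g e
  have hNWf : Units.map (Algebra.norm ↥(lg_F L M) : ↥(lg_F L (M * q)) →* ↥(lg_F L M))
      (s44dn_Wu W (Units.mk0 f hf)) ∈ P' := by
    obtain ⟨c, g, e⟩ := hNβ
    exact s44dn_mem_P_of_eq c g e
  have hWu : s44dn_Wu W (Units.mk0 f hf) = Units.mk0 (W f) hWf := Units.ext rfl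
  have key := s44dn_abs D ϖ hϖirr hWϖ P P' hPP' hNP hWP (Units.mk0 f hf) hNf hNWf
    ((tr 1 f hf).1 h1) (by rw [hWu]; exact (tr 1 (W f) hWf).1 h1W)
  intro n hn
  obtain ⟨k1, k2⟩ := key n hn
  rw [hWu] at k2
  exact ⟨(tr n f hf).2 k1, (tr n (W f) hWf).2 k2⟩

end Tower

end Fermat.Agent.S44
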