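/-
S44 cell [DICH-HALF] (helper14), file 1: in the context of the two-valuations lemma
`ssm_tw_Data K R q V1 W lam`, an element `τ ∈ E` with

  `τ ≡ 1 mod π V1`,   `W τ = π⁻¹ · (1 + π V1)`,   `N_{E/K}(τ) = π^{-q} · (1 + π R)`

(`(w_∞, w_0)(τ) = (0, -1)` with trivial leading coefficients and trivial norm residue).
Proof: CRT (`s44d_crt`) gives `s' ∈ S` with `s' ≡ 1 mod P2²`, `s' ≡ π mod P1²`; helper29's
`s44d_normA_simple` gives `N(s') ≡ s' mod P1²`; `τ := s' / π`.
-/
import Mathlib
import Fermat.Agent.S44.DichNF.Abs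

set_option autoImplicit false
set_option linter.unusedSectionVars false
set_option linter.style.haveILetI false

open IsLocalRing IsDedekindDomain WithZero

namespace Fermat.Agent.S44

open Fermat.Agent.SS Fermat.Agent.JT3

section HalfAbs

variable {K : Type*} {E : Type*} [Field K] [Field E] [Algebra K E] [FiniteDimensional K E]
  [Algebra.IsSeparable K E]
  {R : Type*} [CommRing R] [IsDomain R] [IsDiscreteValuationRing R] [Algebra R K]
  [IsFractionRing R K] [Algebra R E] [IsScalarTower R K E]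

/-- membership in a power of the centre of `V`, read in `E`. -/
theorem s44dn_mem_pow_iff [IsDedekindDomain ↥(integralClosure R E)]
    [IsFractionRing ↥(integralClosure R E) E] {V : ValuationSubring E} (hV : ssm_tw_Over K R V)
    (π : R) (hunif : ∀ a : E, a ∈ V.nonunits ↔ ∃ b ∈ V, a = algebraMap R E π * b) (n : ℕ)
    (s : ↥(integralClosure R E)) :
    s ∈ (s44dn_spec hV).asIdeal ^ n ↔ ∃ b ∈ V, (s : E) = algebraMap R E π ^ n * b := by
  rw [← s44dn_val_le_exp_iff hV π hunif n, ← (s44dn_spec hV).intValuation_le_pow_iff_mem,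
    ← HeightOneSpectrum.valuation_of_algebraMap (K := E)]
  rfl

/-- `1 + x ≠ 0` for `x` in the maximal ideal of a valuation subring. -/
theorem s44dn_one_add_ne_zero (A : ValuationSubring E) {x : E} (hx : x ∈ A.nonunits) :
    (1 : E) + x ≠ 0 := by
  intro h
  have hx1 : x = -1 := by linear_combination h
  rw [hx1, ssm_tw_nonunits_iff] at hx
  rcases hx.2 with h0 | h0
  · exact absurd h0 (by norm_num)
  · apply h0
    rw [inv_neg, inv_one]
    exact A.neg_mem _ A.one_mem

variable {q : ℕ} {V1 : ValuationSubring E} {W : E ≃+* E} {lam : R}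

include K in
/-- **the auxiliary element `τ`**. -/
theorem s44dn_exists_tau (D : ssm_tw_Data K R q V1 W lam) (π : R) (hπ : Irreducible π)
    (hWπ : W (algebraMap R E π) = algebraMap R E π) :
    ∃ τ : E, τ ≠ 0 ∧ (∃ b ∈ V1, τ = 1 + algebraMap R E π * b) ∧
      (∃ b ∈ V1, W τ * algebraMap R E π = 1 + algebraMap R E π * b) ∧
      (∃ r : R, Algebra.norm K τ * algebraMap R K π ^ q = algebraMap R K (1 + π * r)) := by
  obtain ⟨hD, hF, hfin, hfree, hrk⟩ := ssm_tw_inst K (E := E) R
  haveI := hD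
  haveI := hF
  haveI := hfin
  haveI := hfree
  have hV2 := ssm_tw_over2 D
  obtain ⟨hmap0, htr⟩ := s44dn_core D
  have hu1 := ssm_tw_unif1 D π hπ
  have hu2 := ssm_tw_unif2 D π hπ
  set v1 := s44dn_spec D.over1 with hv1
  set v2 := s44dn_spec hV2 with hv2
  have hne : v2 ≠ v1 := by
    intro h
    have h' : ssm_tw_centre K R (V1.comap (W : E →+* E)) hV2 = ssm_tw_centre K R V1 D.over1 :=
      congrArg HeightOneSpectrum.asIdeal h
    exact ssm_tw_ne D (ssm_tw_eq_of_centre_eq D.over1 hV2 h'.symm)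
  have hmap : Ideal.span {algebraMap R ↥(integralClosure R E) π} = v2.asIdeal * v1.asIdeal := by
    rw [← Set.image_singleton, ← Ideal.map_span, ← hπ.maximalIdeal_eq]
    exact hmap0
  have hcop : IsCoprime v2.asIdeal v1.asIdeal := s44d_isCoprime hne
  have hsurj : ∀ s : ↥(integralClosure R E), ∃ r : R,
      s - algebraMap R ↥(integralClosure R E) r ∈ v1.asIdeal := (ssm_tw_core D).2.2.2.2.1
  have hNloc : ∀ s : ↥(integralClosure R E), (Algebra.norm K : E →* K)
      (algebraMap ↥(integralClosure R E) E s) = algebraMap R K (Algebra.norm R s) := by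
    intro s
    haveI : IsLocalization (Algebra.algebraMapSubmonoid ↥(integralClosure R E)
        (nonZeroDivisors R)) E :=
      IsIntegralClosure.isLocalization_of_isSeparable R K E ↥(integralClosure R E)
    exact Algebra.norm_localization R (nonZeroDivisors R) (Rₘ := K) (Sₘ := E) s
  obtain ⟨s', hs0, hs1⟩ := s44d_crt hcop 2 2 1 (algebraMap R ↥(integralClosure R E) π)
  have hN := s44d_normA_simple hmap hcop hsurj 2 s' hs0
  obtain ⟨c1, hc1, e1⟩ := (s44dn_mem_pow_iff D.over1 π hu1 2 _).1 hs1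
  obtain ⟨c2, hc2, e2⟩ := (s44dn_mem_pow_iff hV2 π hu2 2 _).1 hs0
  obtain ⟨c3, hc3, e3⟩ := (s44dn_mem_pow_iff D.over1 π hu1 2 _).1 hN
  push_cast at e1 e2 e3
  set ϖ := algebraMap R E π with hϖ
  have hϖ0 : ϖ ≠ 0 := by
    intro h0
    have hinj : Function.Injective (algebraMap R E) := by
      rw [IsScalarTower.algebraMap_eq R K E]
      exact (algebraMap K E).injective.comp (IsFractionRing.injective R K)
    exact hπ.ne_zero (hinj (by rw [← hϖ, h0, map_zero]))
  have hϖm : ϖ ∈ V1.nonunits := (hu1 ϖ).2 ⟨1, V1.one_mem, (mul_one _).symm⟩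
  have hϖV : ϖ ∈ V1 := ssm_tw_nonunits_le V1 hϖm
  -- the norm
  have hnE : algebraMap R E (Algebra.norm R s') = ϖ * (1 + ϖ * (c1 + c3)) := by
    linear_combination e3 + e1
  have hc13 : c1 + c3 ∈ V1 := V1.add_mem _ _ hc1 hc3
  set πK := algebraMap R K π with hπK
  have hπK0 : πK ≠ 0 := by
    intro h0
    exact hπ.ne_zero (IsFractionRing.injective R K (by rw [← hπK, h0, map_zero]))
  have hπKE : algebraMap K E πK = ϖ := by
    rw [hπK, hϖ, ← IsScalarTower.algebraMap_apply]
  set z : K := (algebraMap R K (Algebra.norm R s') / πK - 1) / πK with hz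
  have hzE : algebraMap K E z = c1 + c3 := by
    rw [hz, map_div₀, map_sub, map_div₀, map_one, hπKE, ← IsScalarTower.algebraMap_apply, hnE]
    field_simp
    ring
  obtain ⟨r, hr⟩ := (D.over1 z).1 (by rw [hzE]; exact hc13)
  have hnK : algebraMap R K (Algebra.norm R s') = πK * (1 + πK * algebraMap R K r) := by
    rw [hr, hz]
    field_simp
    ring
  -- τ
  refine ⟨(s' : E) / ϖ, ?_, ⟨c1, hc1, ?_⟩, ⟨ϖ * W c2, ?_, ?_⟩, ⟨r, ?_⟩⟩
  · have h1 : (s' : E) = ϖ * (1 + ϖ * c1) := by linear_combination e1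
    rw [h1]
    refine div_ne_zero (mul_ne_zero hϖ0 ?_) hϖ0
    refine s44dn_one_add_ne_zero V1 ?_
    rw [mul_comm]
    exact ssm_tw_nonunits_mul V1 hc1 hϖm
  · have h1 : (s' : E) = ϖ * (1 + ϖ * c1) := by linear_combination e1
    rw [h1]
    field_simp
  · exact V1.mul_mem _ _ hϖV hc2
  · have h2 : (s' : E) = 1 + ϖ ^ 2 * c2 := by linear_combination e2
    rw [map_div₀, hWπ, h2, map_add, map_one, map_mul, map_pow, hWπ]
    field_simp
  · have h3 : Algebra.norm K ((s' : E) / ϖ) * πK ^ (q + 1) =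
        algebraMap R K (Algebra.norm R s') := by
      have h4 : Algebra.norm K ϖ = πK ^ (q + 1) := by
        rw [← hπKE, Algebra.norm_algebraMap, D.finrank_eq]
      rw [← h4, ← map_mul, div_mul_cancel₀ _ hϖ0]
      exact hNloc s'
    rw [hnK] at h3
    rw [map_add, map_one, map_mul, ← hπK]
    have h5 : (Algebra.norm K ((s' : E) / ϖ) * πK ^ q) * πK = (1 + πK * algebraMap R K r) * πK := by
      rw [mul_comm (1 + πK * algebraMap R K r) πK, ← h3]
      ring
    exact mul_right_cancel₀ hπK0 h5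

end HalfAbs

end Fermat.Agent.S44
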