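/-
S44 cell [DICH-HALF] (helper14), file 2: **the Gauss reduction `F_N(L) ⊇ bounded → F_N(k)` is onto**
(`k` the residue field of the valuation subring `O ⊆ L`): every element of
`modularFunctionFieldFullC k N = k(j(X^d) : d ∣ N)` is the `gq_res` of a Gauss-bounded element of
`lg_F L N = L(j(X^d) : d ∣ N)`.
-/
import Mathlib
import Fermat.Agent.JT3.Bridge.GaussModular

set_option autoImplicit false
set_option linter.unusedSectionVars false
set_option linter.unusedVariables false

noncomputable section

namespace Fermat.Agent.S44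

open ModularCurve IntermediateField IsLocalRing
open Fermat.Agent.JT3

section Surj

variable {L : Type*} [Field L] (O : ValuationSubring L) (N : ℕ) [NeZero N]

/-- the reduction of a constant from `O`. -/
theorem s44dn_res_const (c : O) :
    ∃ hb : gq_IsBdd O L (algebraMap L (LaurentSeries L) (c : L)),
      gq_res O L ⟨algebraMap L (LaurentSeries L) (c : L), hb⟩ =
        algebraMap (ResidueField O) (LaurentSeries (ResidueField O)) (residue O c) := by
  have h1 : algebraMap L (LaurentSeries L) (c : L) =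
      coeffMap (algebraMap O L) (algebraMap O (LaurentSeries O) c) := by
    rw [gq_coeffMap_algebraMap]
    rfl
  have hb : gq_IsBdd O L (algebraMap L (LaurentSeries L) (c : L)) := by
    rw [h1]
    exact gq_isBdd_iota _
  refine ⟨hb, ?_⟩
  rw [gq_res_eq ⟨_, hb⟩ (z1 := algebraMap O (LaurentSeries O) c) (z2 := 1)
    (by rw [map_one]; exact one_ne_zero) (by rw [map_one, mul_one]; exact h1), map_one, div_one,
    gq_algebraMap_eq_single, coeffMap_single, gq_algebraMap_eq_single]

/-- **the Gauss reduction is onto `F_N(k)`.** -/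
theorem s44dn_res_surj (y : LaurentSeries (ResidueField O))
    (hy : y ∈ modularFunctionFieldFullC (ResidueField O) N) :
    ∃ (a : LaurentSeries L) (_ : a ∈ lg_F L N) (hb : gq_IsBdd O L a),
      gq_res O L ⟨a, hb⟩ = y := by
  rw [modularFunctionFieldFullC] at hy
  induction hy using IntermediateField.adjoin_induction with
  | mem y hy =>
    obtain ⟨d, hd, hdN, rfl⟩ := hy
    have := hd
    have h1 : qExpand L d (jqModC L) = coeffMap (algebraMap O L) (qExpand O d (jqModC O)) := by
      rw [coeffMap_qExpand, coeffMap_jqModC]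
    have hb : gq_IsBdd O L (qExpand L d (jqModC L)) := by
      rw [h1]
      exact gq_isBdd_iota _
    refine ⟨qExpand L d (jqModC L), jqModCd_mem_full L N hdN, hb, ?_⟩
    rw [gq_res_eq ⟨_, hb⟩ (z1 := qExpand O d (jqModC O)) (z2 := 1)
      (by rw [map_one]; exact one_ne_zero) (by rw [map_one, mul_one]; exact h1), map_one, div_one,
      coeffMap_qExpand, coeffMap_jqModC]
  | algebraMap r =>
    obtain ⟨c, rfl⟩ := residue_surjective r
    obtain ⟨hb, e⟩ := s44dn_res_const O c
    exact ⟨_, (lg_F L N).algebraMap_mem _, hb, e⟩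
  | add x y _ _ hx hy =>
    obtain ⟨a, ha, hab, rfl⟩ := hx
    obtain ⟨b, hb, hbb, rfl⟩ := hy
    have hab' : gq_IsBdd O L (a + b) := (gq_bddSubring O L).add_mem hab hbb
    refine ⟨a + b, (lg_F L N).add_mem ha hb, hab', ?_⟩
    rw [← map_add]
    rfl
  | mul x y _ _ hx hy =>
    obtain ⟨a, ha, hab, rfl⟩ := hx
    obtain ⟨b, hb, hbb, rfl⟩ := hy
    have hab' : gq_IsBdd O L (a * b) := (gq_bddSubring O L).mul_mem hab hbb
    refine ⟨a * b, (lg_F L N).mul_mem ha hb, hab', ?_⟩
    rw [← map_mul]
    rfl
  | inv x _ hx =>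
    obtain ⟨a, ha, hab, rfl⟩ := hx
    by_cases h0 : gq_res O L ⟨a, hab⟩ = 0
    · rw [h0, inv_zero]
      exact ⟨0, zero_mem _, (gq_bddSubring O L).zero_mem, map_zero (gq_res O L)⟩
    · have hinv := gq_isBdd_inv_of_res_ne_zero ⟨a, hab⟩ h0
      refine ⟨a⁻¹, inv_mem ha, hinv, ?_⟩
      have ha0 : a ≠ 0 := by
        rintro rfl
        exact h0 (map_zero (gq_res O L))
      have h1 : (⟨a, hab⟩ : ↥(gq_bddSubring O L)) * ⟨a⁻¹, hinv⟩ = 1 :=
        Subtype.ext (mul_inv_cancel₀ ha0)
      have h2 := congrArg (gq_res O L) h1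
      rw [map_mul, map_one] at h2
      exact eq_inv_of_mul_eq_one_right h2

end Surj

end Fermat.Agent.S44
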