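/-
S44 cell [DICH-HALF] (helper14), file 3: generic lemmas.

* `s44dn_mem_unitGroup_iff`, `s44dn_mem_principalUnitGroup_iff` : Mathlib's `A.unitGroup`,
  `A.principalUnitGroup` in elementary terms (`x, x⁻¹ ∈ A`;  `x = 1 + ϖ b`, `b ∈ A`);
* `s44dn_red` : the reduction ring homomorphism of the Gauss ring of a field
  `F ≤ Quot(O((X)))`, `s44dn_red_eq_zero_iff` (kernel = the maximal ideal);
* `s44dn_exists_zpow_unit` : every `x ∈ Fˣ` is `π ^ n · (Gauss unit)`, `n ∈ ℤ`.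
-/
import Mathlib
import Fermat.Agent.SS.Model.Gauss
import Fermat.Agent.SS.Model.TwoValW
import Fermat.Agent.S44.DichNF.ResSurj

set_option autoImplicit false
set_option linter.unusedSectionVars false
set_option linter.unusedVariables false
set_option linter.style.haveILetI false

noncomputable section

namespace Fermat.Agent.S44

open ModularCurve IntermediateField IsLocalRing
open Fermat.Agent.JT3 Fermat.Agent.SS

section Groups

variable {E : Type*} [Field E]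

theorem s44dn_mem_unitGroup_iff (A : ValuationSubring E) (x : Eˣ) :
    x ∈ A.unitGroup ↔ (x : E) ∈ A ∧ ((x : E))⁻¹ ∈ A := by
  rw [ValuationSubring.mem_unitGroup_iff]
  constructor
  · intro h
    constructor
    · rw [← A.valuation_le_one_iff, h]
    · rw [← A.valuation_le_one_iff, map_inv₀, h, inv_one]
  · rintro ⟨h1, h2⟩
    rw [← A.valuation_le_one_iff] at h1 h2
    rw [map_inv₀] at h2
    have hv0 : A.valuation (x : E) ≠ 0 := (Valuation.ne_zero_iff _).2 x.ne_zero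
    exact le_antisymm h1 ((inv_le_one₀ (zero_lt_iff.2 hv0)).1 h2)

theorem s44dn_mem_principalUnitGroup_iff (A : ValuationSubring E) (ϖ : E)
    (hunif : ∀ a : E, a ∈ A.nonunits ↔ ∃ b ∈ A, a = ϖ * b) (x : Eˣ) :
    x ∈ A.principalUnitGroup ↔ ∃ b ∈ A, (x : E) = 1 + ϖ * b := by
  rw [ValuationSubring.mem_principalUnitGroup_iff, ← ValuationSubring.mem_nonunits_iff, hunif]
  constructor
  · rintro ⟨b, hb, e⟩
    exact ⟨b, hb, by linear_combination e⟩
  · rintro ⟨b, hb, e⟩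
    exact ⟨b, hb, by linear_combination e⟩

end Groups

section Red

variable {O : Type*} [CommRing O] [IsDomain O] [IsLocalRing O] [WfDvdMonoid O]
variable {K : Type*} [Field K] [Algebra O K] [IsFractionRing O K]
variable (π : O) (hπ0 : π ≠ 0) (hπ : maximalIdeal O = Ideal.span {π})
  (F : IntermediateField K (LaurentSeries K)) (hF : F ≤ gq_quotField O K)

/-- the reduction homomorphism of the Gauss ring of `F`. -/
def s44dn_red : ↥(gq_valSubOf π hπ0 hπ F hF) →+* LaurentSeries (ResidueField O) :=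
  (gq_res O K).comp
    { toFun := fun x => ⟨((x : ↥F) : LaurentSeries K), x.2⟩
      map_one' := rfl
      map_mul' := fun _ _ => rfl
      map_zero' := rfl
      map_add' := fun _ _ => rfl }

theorem s44dn_red_apply (x : ↥(gq_valSubOf π hπ0 hπ F hF)) :
    s44dn_red π hπ0 hπ F hF x = gq_res O K ⟨((x : ↥F) : LaurentSeries K), x.2⟩ := rfl

/-- the kernel of the reduction is the maximal ideal. -/
theorem s44dn_red_eq_zero_iff (x : ↥(gq_valSubOf π hπ0 hπ F hF)) :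
    s44dn_red π hπ0 hπ F hF x = 0 ↔ (x : ↥F) ∈ (gq_valSubOf π hπ0 hπ F hF).nonunits := by
  rw [ValuationSubring.coe_mem_nonunits_iff, gq_mem_maximalIdeal_iff, s44dn_red_apply,
    gq_res_eq_zero_iff π hπ0 hπ]
  have hc0 := gq_const_ne_zero (K := K) π hπ0 (IsFractionRing.injective O K)
  constructor
  · rintro ⟨w, hw⟩
    change ((x : ↥F) : LaurentSeries K) = _ at hw
    have hwF : (w : LaurentSeries K) ∈ F := by
      have h1 : (w : LaurentSeries K) =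
          (algebraMap K (LaurentSeries K) (algebraMap O K π))⁻¹ * ((x : ↥F) : LaurentSeries K) := by
        rw [hw, ← mul_assoc, inv_mul_cancel₀ hc0, one_mul]
      rw [h1]
      exact F.mul_mem (F.inv_mem (F.algebraMap_mem _)) (x : ↥F).2
    exact ⟨⟨w, hwF⟩, w.2, Subtype.ext hw⟩
  · rintro ⟨w, hw, e⟩
    refine ⟨⟨(w : LaurentSeries K), hw⟩, ?_⟩
    change ((x : ↥F) : LaurentSeries K) = _
    rw [e]
    rfl

theorem s44dn_red_ne_zero_of_inv (x : ↥(gq_valSubOf π hπ0 hπ F hF))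
    (hx0 : (x : ↥F) ≠ 0) (hinv : (x : ↥F)⁻¹ ∈ gq_valSubOf π hπ0 hπ F hF) :
    s44dn_red π hπ0 hπ F hF x ≠ 0 := by
  intro h0
  have h1 : x * ⟨(x : ↥F)⁻¹, hinv⟩ = 1 := Subtype.ext (mul_inv_cancel₀ hx0)
  have h2 := congrArg (s44dn_red π hπ0 hπ F hF) h1
  rw [map_mul, h0, zero_mul, map_one] at h2
  exact zero_ne_one h2

theorem s44dn_inv_mem_of_red_ne_zero (x : ↥(gq_valSubOf π hπ0 hπ F hF))
    (h : s44dn_red π hπ0 hπ F hF x ≠ 0) : (x : ↥F)⁻¹ ∈ gq_valSubOf π hπ0 hπ F hF := by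
  have h1 : (x : ↥F) ∉ (gq_valSubOf π hπ0 hπ F hF).nonunits := fun hx =>
    h ((s44dn_red_eq_zero_iff π hπ0 hπ F hF x).2 hx)
  exact ssm_tw_inv_mem _ x.2 h1

/-- every nonzero element is a power of `π` times a Gauss unit. -/
theorem s44dn_exists_zpow_unit (x : ↥F) (hx : x ≠ 0) :
    ∃ (n : ℤ) (a : ↥F), a ∈ gq_valSubOf π hπ0 hπ F hF ∧ a⁻¹ ∈ gq_valSubOf π hπ0 hπ F hF ∧
      x = algebraMap K ↥F (algebraMap O K π) ^ n * a := by
  have key : ∀ y : ↥F, y ≠ 0 → y ∈ gq_valSubOf π hπ0 hπ F hF →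
      ∃ (n : ℕ) (a : ↥F), a ∈ gq_valSubOf π hπ0 hπ F hF ∧ a⁻¹ ∈ gq_valSubOf π hπ0 hπ F hF ∧
        y = algebraMap K ↥F (algebraMap O K π) ^ n * a := by
    intro y hy hyV
    obtain ⟨n, u, hu⟩ := ssm_ga_exists_pow_unit π hπ0 hπ F hF ⟨y, hyV⟩
      (fun h => hy (congrArg Subtype.val h))
    have h1 : (((u : ↥(gq_valSubOf π hπ0 hπ F hF)) : ↥F)) *
        (((u⁻¹ : (↥(gq_valSubOf π hπ0 hπ F hF))ˣ) : ↥(gq_valSubOf π hπ0 hπ F hF)) : ↥F) = 1 :=
      congrArg Subtype.val (Units.mul_inv u)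
    refine ⟨n, ((u : ↥(gq_valSubOf π hπ0 hπ F hF)) : ↥F),
      (u : ↥(gq_valSubOf π hπ0 hπ F hF)).2, ?_, ?_⟩
    · rw [← eq_inv_of_mul_eq_one_right h1]
      exact ((u⁻¹ : (↥(gq_valSubOf π hπ0 hπ F hF))ˣ) : ↥(gq_valSubOf π hπ0 hπ F hF)).2
    · exact (congrArg Subtype.val hu).symm
  rcases (gq_valSubOf π hπ0 hπ F hF).mem_or_inv_mem x with h | h
  · obtain ⟨n, a, ha, hai, e⟩ := key x hx h
    exact ⟨n, a, ha, hai, by rw [zpow_natCast]; exact e⟩
  · obtain ⟨n, a, ha, hai, e⟩ := key x⁻¹ (inv_ne_zero hx) h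
    refine ⟨-(n : ℤ), a⁻¹, hai, by rwa [inv_inv], ?_⟩
    rw [zpow_neg, zpow_natCast, ← mul_inv, ← e, inv_inv]

/-- `π` generates the maximal ideal of the Gauss ring, element form. -/
theorem s44dn_gauss_unif (a : ↥F) :
    a ∈ (gq_valSubOf π hπ0 hπ F hF).nonunits ↔
      ∃ b ∈ gq_valSubOf π hπ0 hπ F hF, a = algebraMap K ↥F (algebraMap O K π) * b := by
  rw [ValuationSubring.mem_nonunits_iff_exists_mem_maximalIdeal]
  constructor
  · rintro ⟨ha, h⟩
    obtain ⟨w, hw, e⟩ := (gq_mem_maximalIdeal_iff π hπ0 hπ F hF ⟨a, ha⟩).1 h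
    exact ⟨w, hw, e⟩
  · rintro ⟨b, hb, e⟩
    have ha : a ∈ gq_valSubOf π hπ0 hπ F hF := by
      rw [e]
      exact (gq_valSubOf π hπ0 hπ F hF).mul_mem _ _ (gq_unif π hπ0 hπ F hF).2 hb
    exact ⟨ha, (gq_mem_maximalIdeal_iff π hπ0 hπ F hF ⟨a, ha⟩).2 ⟨b, hb, e⟩⟩

/-- elements congruent to `1` reduce to `1`. -/
theorem s44dn_red_eq_one (x : ↥(gq_valSubOf π hπ0 hπ F hF))
    (h : (x : ↥F) - 1 ∈ (gq_valSubOf π hπ0 hπ F hF).nonunits) :
    s44dn_red π hπ0 hπ F hF x = 1 := by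
  have h0 : s44dn_red π hπ0 hπ F hF (x - 1) = 0 :=
    (s44dn_red_eq_zero_iff π hπ0 hπ F hF (x - 1)).2 h
  rwa [map_sub, map_one, sub_eq_zero] at h0

/-- equal nonzero reductions: the quotient is a principal unit. -/
theorem s44dn_sub_one_mem_of_red_eq (x y : ↥(gq_valSubOf π hπ0 hπ F hF))
    (hxy : s44dn_red π hπ0 hπ F hF x = s44dn_red π hπ0 hπ F hF y)
    (hy : s44dn_red π hπ0 hπ F hF y ≠ 0) :
    (x : ↥F) * (y : ↥F)⁻¹ - 1 ∈ (gq_valSubOf π hπ0 hπ F hF).nonunits := by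
  have hyi := s44dn_inv_mem_of_red_ne_zero π hπ0 hπ F hF y hy
  have hy0 : (y : ↥F) ≠ 0 := by
    intro h
    apply hy
    have : y = 0 := Subtype.ext h
    rw [this, map_zero]
  have h1 : s44dn_red π hπ0 hπ F hF (x * ⟨(y : ↥F)⁻¹, hyi⟩ - 1) = 0 := by
    rw [map_sub, map_mul, map_one, hxy, ← map_mul]
    have : y * ⟨(y : ↥F)⁻¹, hyi⟩ = 1 := Subtype.ext (mul_inv_cancel₀ hy0)
    rw [this, map_one, sub_self]
  exact (s44dn_red_eq_zero_iff π hπ0 hπ F hF _).1 h1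

end Red

section Const

variable {L : Type*} [Field L] (O : ValuationSubring L) [IsDiscreteValuationRing O] {π : O}
  (hπ : Irreducible π)
  (F : IntermediateField L (LaurentSeries L)) (hF : F ≤ gq_quotField O L)

/-- the reduction of a constant from `O`. -/
theorem s44dn_red_const (o : O) :
    ∃ h : algebraMap L ↥F (o : L) ∈ gq_valSubOf π hπ.ne_zero hπ.maximalIdeal_eq F hF,
      s44dn_red π hπ.ne_zero hπ.maximalIdeal_eq F hF ⟨_, h⟩ =
        algebraMap (ResidueField O) (LaurentSeries (ResidueField O)) (residue O o) := by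
  obtain ⟨hb, e⟩ := s44dn_res_const O o
  exact ⟨hb, e⟩

/-- a constant of `L` in the Gauss ring lies in `O`. -/
theorem s44dn_const_mem (c : L)
    (hc : algebraMap L ↥F c ∈ gq_valSubOf π hπ.ne_zero hπ.maximalIdeal_eq F hF) : c ∈ O := by
  by_contra hcO
  have hci : c⁻¹ ∈ O := (O.mem_or_inv_mem c).resolve_left hcO
  have hc0 : c ≠ 0 := fun h => hcO (h ▸ O.zero_mem)
  have hnu : (⟨c⁻¹, hci⟩ : O) ∈ maximalIdeal O := by
    rw [mem_maximalIdeal, mem_nonunits_iff]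
    rintro ⟨u, hu⟩
    apply hcO
    have h1 : ((u⁻¹ : (↥O)ˣ) : O) * (⟨c⁻¹, hci⟩ : O) = 1 := by
      rw [← hu]
      exact Units.inv_mul u
    have h2 : (((u⁻¹ : (↥O)ˣ) : O) : L) * c⁻¹ = 1 := congrArg Subtype.val h1
    have h3 : (((u⁻¹ : (↥O)ˣ) : O) : L) = c := by
      calc (((u⁻¹ : (↥O)ˣ) : O) : L) = (((u⁻¹ : (↥O)ˣ) : O) : L) * c⁻¹ * c := by
            rw [mul_assoc, inv_mul_cancel₀ hc0, mul_one]
        _ = c := by rw [h2, one_mul]
    rw [← h3]
    exact ((u⁻¹ : (↥O)ˣ) : O).2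
  rw [hπ.maximalIdeal_eq, Ideal.mem_span_singleton] at hnu
  obtain ⟨o, ho⟩ := hnu
  have h4 : c⁻¹ = (π : L) * (o : L) := congrArg Subtype.val ho
  have h5 : algebraMap L ↥F c⁻¹ ∈
      (gq_valSubOf π hπ.ne_zero hπ.maximalIdeal_eq F hF).nonunits := by
    rw [s44dn_gauss_unif]
    refine ⟨algebraMap L ↥F (o : L), (s44dn_red_const O hπ F hF o).1, ?_⟩
    rw [h4, map_mul]
    rfl
  have h6 := ssm_tw_nonunits_mul _ hc h5
  rw [← map_mul, mul_inv_cancel₀ hc0, map_one, ssm_tw_nonunits_iff] at h6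
  rcases h6.2 with h | h
  · exact one_ne_zero h
  · apply h
    rw [inv_one]
    exact (gq_valSubOf π hπ.ne_zero hπ.maximalIdeal_eq F hF).one_mem

end Const

end Fermat.Agent.S44
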