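/-
S44 cell [DICH-HALF] (helper14), file 4: **one norm condition transports depth `≥ 1` from `w_∞` to
`w_0`** for the tower `F_M(L) ≤ F_{M q}(L)` (notation of `DichNF/Main.lean`), over a DVR `O ⊆ L` with
PERFECT residue field of characteristic `q`:

  `s44dn_half`   : `N_α f = c g^q`, depth `≥ 1` of `f`     `⟹` depth `≥ 1` of `W f`;
  `s44dn_half_W` : `N_α (W f) = c g^q`, depth `≥ 1` of `W f` `⟹` depth `≥ 1` of `f`.

Proof: WLOG `f = u ∈ 1 + π V1` (`V1` the Gauss ring).  `W u = π^n a'`, `a'` a Gauss unit.  With the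
element `τ` of `HalfAbs.lean` (`τ ≡ 1`, `W τ = π⁻¹(1 + π V1)`, `N τ = π^{-q}(1 + π R)`), `u₂ := u τ^n` is
a unit at both valuations, `≡ 1` at `w_∞`, so helper4's `rdn_gf_norm_res` gives
`Fr (red (W u₂)) = red (N u₂) ∈ k^× · (red R^×)^q`; as `Fr (red (W g)) = (red g)^q` for `g ∈ R` and
`red (W g) = (red g₄)^q` for a lift `g₄` of `Fr⁻¹ (red g)` (`s44dn_res_surj`, `ssm_al_coeffMap_mem`),
`red (W u₂) = red (o₁ g₄^q)`, i.e. `W u₂ ∈ Lˣ (Eˣ)^q (1 + π V1)`; finally `W u = W u₂ · (W τ)^{-n}`.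
-/
import Mathlib
import Fermat.Agent.S44.DichNF.Main
import Fermat.Agent.S44.DichNF.HalfAbs
import Fermat.Agent.S44.DichNF.HalfGauss

set_option autoImplicit false
set_option linter.unusedSectionVars false
set_option linter.unusedVariables false
set_option linter.style.haveILetI false

noncomputable section

namespace Fermat.Agent.S44

open ModularCurve IntermediateField IsLocalRing
open Fermat.Agent.JT3 Fermat.Agent.SS Fermat.Agent.S35

section Tower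

variable {L : Type*} [Field L] [CharZero L] [Algebra L (AlgebraicClosure ℚ)]
  (O : ValuationSubring L) [IsDiscreteValuationRing O] {π : O} (hπ : Irreducible π)
variable (M q : ℕ) [NeZero M] [NeZero q] [hq : Fact q.Prime] [CharP (ResidueField O) q]
  (hqM : ¬ q ∣ M)

/-- the Gauss ring of `F_{M q}(L)`. -/
abbrev s44dn_V1 : ValuationSubring ↥(lg_F L (M * q)) :=
  gq_valSubOf π hπ.ne_zero hπ.maximalIdeal_eq (lg_F L (M * q)) (rdn_gf_le_quotField O (M * q))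

/-- the Gauss ring of `F_M(L)`. -/
abbrev s44dn_VR : ValuationSubring ↥(lg_F L M) :=
  gq_valSubOf π hπ.ne_zero hπ.maximalIdeal_eq (lg_F L M)
    ((ssm_al_F_le L M q).trans (rdn_gf_le_quotField O (M * q)))

/-- the reduction on the Gauss ring of `F_{M q}(L)`. -/
abbrev s44dn_red1 : ↥(s44dn_V1 O hπ M q) →+* LaurentSeries (ResidueField O) :=
  s44dn_red π hπ.ne_zero hπ.maximalIdeal_eq (lg_F L (M * q)) (rdn_gf_le_quotField O (M * q))

variable (L) in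
/-- the inclusion `F_M(L) ⊆ F_{M q}(L)` as an algebra structure. -/
@[reducible] def s44dn_algKE : Algebra ↥(lg_F L M) ↥(lg_F L (M * q)) :=
  ssm_gi_algebra (ssm_al_F_le L M q)

attribute [local instance] s44dn_algKE

/-- **[RED-N]** in the vocabulary of `s44dn_red1`. -/
theorem s44dn_norm_red (a : ↥(lg_F L (M * q))) (h1 : a ∈ s44dn_V1 O hπ M q)
    (h2 : rdn_gf_W L M q hqM a ∈ s44dn_V1 O hπ M q) :
    ∃ hN : algebraMap ↥(lg_F L M) ↥(lg_F L (M * q)) (Algebra.norm ↥(lg_F L M) a) ∈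
        s44dn_V1 O hπ M q,
      s44dn_red1 O hπ M q ⟨_, hN⟩ = s44dn_red1 O hπ M q ⟨a, h1⟩ *
        coeffMap (frobenius (ResidueField O) q) (s44dn_red1 O hπ M q ⟨_, h2⟩) :=
  (rdn_gf_norm_res O hπ M q hqM a h1 h2).1

/-- the coefficientwise Frobenius of a constant. -/
theorem s44dn_frob_const (z : ResidueField O) :
    coeffMap (frobenius (ResidueField O) q)
      (algebraMap (ResidueField O) (LaurentSeries (ResidueField O)) z) =
      algebraMap (ResidueField O) (LaurentSeries (ResidueField O)) (z ^ q) := by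
  rw [gq_algebraMap_eq_single, coeffMap_single, gq_algebraMap_eq_single, frobenius_def]

/-- for `g` in the Gauss ring of `F_M(L)`: `Fr (red (W g)) = (red g)^q`, and `red (W g)` is the
`q`-th power of the reduction of an element of the Gauss ring of `F_M(L)`. -/
theorem s44dn_W_red_pow [PerfectRing (ResidueField O) q] (g : ↥(lg_F L M))
    (hg : g ∈ s44dn_VR O hπ M q) :
    ∃ (g4 : ↥(lg_F L M)) (h4 : algebraMap ↥(lg_F L M) ↥(lg_F L (M * q)) g4 ∈ s44dn_V1 O hπ M q)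
      (h0 : algebraMap ↥(lg_F L M) ↥(lg_F L (M * q)) g ∈ s44dn_V1 O hπ M q)
      (hW : rdn_gf_W L M q hqM (algebraMap ↥(lg_F L M) ↥(lg_F L (M * q)) g) ∈ s44dn_V1 O hπ M q),
      s44dn_red1 O hπ M q ⟨_, hW⟩ = s44dn_red1 O hπ M q ⟨_, h4⟩ ^ q ∧
      coeffMap (frobenius (ResidueField O) q) (s44dn_red1 O hπ M q ⟨_, hW⟩) =
        s44dn_red1 O hπ M q ⟨_, h0⟩ ^ q := by
  have hgb : gq_IsBdd O L (g : LaurentSeries L) := hg
  -- `W g = g(X^q)`
  have hWg : ((rdn_gf_W L M q hqM (algebraMap ↥(lg_F L M) ↥(lg_F L (M * q)) g) :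
      ↥(lg_F L (M * q))) : LaurentSeries L) = qExpand L q (g : LaurentSeries L) :=
    ssm_al_coe_W_of_mem L M q hq.out hqM g.2 _
  have hWb : gq_IsBdd O L (qExpand L q (g : LaurentSeries L)) := ssm_ga_beta_isBdd q hgb
  have hW : rdn_gf_W L M q hqM (algebraMap ↥(lg_F L M) ↥(lg_F L (M * q)) g) ∈
      s44dn_V1 O hπ M q := by
    rw [gq_mem_valSubOf, hWg]
    exact hWb
  have hredW : s44dn_red1 O hπ M q ⟨_, hW⟩ =
      qExpand (ResidueField O) q (gq_res O L ⟨(g : LaurentSeries L), hgb⟩) := by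
    rw [← ssm_ga_res_beta q ⟨(g : LaurentSeries L), hgb⟩]
    exact rdn_res_congr _ _ hWg
  -- the reduction of `g` is a modular function of level `M` over the residue field
  have hqO : ((q : ℕ) : ↥O) ∈ maximalIdeal ↥O := by
    rw [← residue_eq_zero_iff, map_natCast]
    exact CharP.cast_eq_zero (ResidueField ↥O) q
  obtain ⟨ρ⟩ := lgv_exists_rhoO (L := L) (O := ↥O) (IsFractionRing.injective ↥O L) q hqO
  have hmem := gqm_res_mem_full O q M hqM ρ (g : LaurentSeries L) g.2 hgb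
  have hmem' := ssm_al_coeffMap_mem
    ((frobeniusEquiv (ResidueField O) q).symm : ResidueField O →+* ResidueField O) M hmem
  obtain ⟨a, ha, hab, ea⟩ := s44dn_res_surj O M _ hmem'
  have hid : (frobenius (ResidueField O) q).comp
      ((frobeniusEquiv (ResidueField O) q).symm : ResidueField O →+* ResidueField O) =
        RingHom.id _ := by
    ext x
    exact frobenius_apply_frobeniusEquiv_symm (ResidueField O) q x
  refine ⟨⟨a, ha⟩, hab, hgb, hW, ?_, ?_⟩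
  · rw [hredW]
    show _ = (gq_res O L ⟨a, hab⟩) ^ q
    rw [ea, ca_pow_eq_qExpand_frobenius (ResidueField O) q, coeffMap_coeffMap, hid, coeffMap_id]
  · rw [hredW]
    show _ = (gq_res O L ⟨(g : LaurentSeries L), hgb⟩) ^ q
    rw [coeffMap_qExpand, ca_pow_eq_qExpand_frobenius (ResidueField O) q]

/-- membership in the Gauss ring of `F_{M q}(L)` for elements of `F_M(L)`. -/
theorem s44dn_mem_V1_iff (z : ↥(lg_F L M)) :
    algebraMap ↥(lg_F L M) ↥(lg_F L (M * q)) z ∈ s44dn_V1 O hπ M q ↔ z ∈ s44dn_VR O hπ M q := by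
  rw [gq_mem_valSubOf, gq_mem_valSubOf, ssm_gi_coe_algebraMap]

/-- non-units of the Gauss ring of `F_M(L)` are non-units of the Gauss ring of `F_{M q}(L)`. -/
theorem s44dn_nonunits_incl (z : ↥(lg_F L M)) (hz : z ∈ (s44dn_VR O hπ M q).nonunits) :
    algebraMap ↥(lg_F L M) ↥(lg_F L (M * q)) z ∈ (s44dn_V1 O hπ M q).nonunits := by
  haveI := ssm_gi_isScalarTower_base (L := L) (ssm_al_F_le L M q)
  obtain ⟨b, hb, e⟩ := (s44dn_gauss_unif π hπ.ne_zero hπ.maximalIdeal_eq (lg_F L M) _ z).1 hz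
  refine (s44dn_gauss_unif π hπ.ne_zero hπ.maximalIdeal_eq (lg_F L (M * q)) _ _).2
    ⟨algebraMap ↥(lg_F L M) ↥(lg_F L (M * q)) b, (s44dn_mem_V1_iff O hπ M q b).2 hb, ?_⟩
  rw [e, map_mul]
  rfl

/-- **the core**: a principal unit `w` at `w_∞` which is a unit at `w_0` and whose norm lies in
`Lˣ (Kˣ)^q (1 + π R)` has `W w ∈ Lˣ (Eˣ)^q (1 + π V1)`. -/
theorem s44dn_half_core [PerfectRing (ResidueField O) q] (w : (↥(lg_F L (M * q)))ˣ)
    (hw : w ∈ (s44dn_V1 O hπ M q).principalUnitGroup)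
    (hWw : s44dn_Wu (rdn_gf_W L M q hqM) w ∈ (s44dn_V1 O hπ M q).unitGroup)
    (hNw : Units.map (Algebra.norm ↥(lg_F L M) : ↥(lg_F L (M * q)) →* ↥(lg_F L M)) w ∈
      s44dn_P L (E := ↥(lg_F L M)) q ⊔ (s44dn_VR O hπ M q).principalUnitGroup) :
    s44dn_Wu (rdn_gf_W L M q hqM) w ∈
      s44dn_P L (E := ↥(lg_F L (M * q))) q ⊔ (s44dn_V1 O hπ M q).principalUnitGroup := by
  haveI := ssm_gi_isScalarTower_base (L := L) (ssm_al_F_le L M q)
  -- `w ∈ V1`, `W w ∈ V1ˣ`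
  have hw1 : (w : ↥(lg_F L (M * q))) ∈ s44dn_V1 O hπ M q :=
    ((s44dn_mem_unitGroup_iff _ w).1 ((s44dn_V1 O hπ M q).principal_units_le_units hw)).1
  obtain ⟨hw2, hw2i⟩ := (s44dn_mem_unitGroup_iff _ _).1 hWw
  have hw2' : rdn_gf_W L M q hqM (w : ↥(lg_F L (M * q))) ∈ s44dn_V1 O hπ M q := hw2
  have hw2i' : (rdn_gf_W L M q hqM (w : ↥(lg_F L (M * q))))⁻¹ ∈ s44dn_V1 O hπ M q := hw2i
  have hWw0 : rdn_gf_W L M q hqM (w : ↥(lg_F L (M * q))) ≠ 0 :=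
    (map_ne_zero (rdn_gf_W L M q hqM)).2 w.ne_zero
  obtain ⟨hN, eN⟩ := s44dn_norm_red O hπ M q hqM (w : ↥(lg_F L (M * q))) hw1 hw2'
  have hredw : s44dn_red1 O hπ M q ⟨(w : ↥(lg_F L (M * q))), hw1⟩ = 1 :=
    s44dn_red_eq_one _ _ _ _ _ ⟨_, hw1⟩
      ((s44dn_V1 O hπ M q).mem_nonunits_iff.2
        (((s44dn_V1 O hπ M q).mem_principalUnitGroup_iff w).1 hw))
  rw [hredw, one_mul] at eN
  have hredW0 : s44dn_red1 O hπ M q ⟨_, hw2'⟩ ≠ 0 :=
    s44dn_red_ne_zero_of_inv _ _ _ _ _ ⟨_, hw2'⟩ hWw0 hw2i'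
  -- decomposition of the norm
  obtain ⟨x, hx, ε, hε, exε⟩ := Subgroup.mem_sup.1 hNw
  obtain ⟨c, g, hc, hg, ex⟩ := s44dn_exists_of_mem_P hx
  obtain ⟨m, g0, hg0, hg0i, eg⟩ :=
    s44dn_exists_zpow_unit π hπ.ne_zero hπ.maximalIdeal_eq (lg_F L M)
      ((ssm_al_F_le L M q).trans (rdn_gf_le_quotField O (M * q))) g hg
  have hg00 : g0 ≠ 0 := by
    rintro rfl
    rw [mul_zero] at eg
    exact hg eg
  have eg' : g = algebraMap L ↥(lg_F L M) (π : L) ^ m * g0 := eg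
  have hNval : (x : ↥(lg_F L M)) * (ε : ↥(lg_F L M)) =
      Algebra.norm ↥(lg_F L M) (w : ↥(lg_F L (M * q))) := by
    rw [← Units.val_mul, exε]
    rfl
  -- `ε`
  have hε1 : (ε : ↥(lg_F L M)) ∈ s44dn_VR O hπ M q :=
    ((s44dn_mem_unitGroup_iff _ ε).1 ((s44dn_VR O hπ M q).principal_units_le_units hε)).1
  have hε1i : ((ε : ↥(lg_F L M)))⁻¹ ∈ s44dn_VR O hπ M q :=
    ((s44dn_mem_unitGroup_iff _ ε).1 ((s44dn_VR O hπ M q).principal_units_le_units hε)).2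
  have hεn : (ε : ↥(lg_F L M)) - 1 ∈ (s44dn_VR O hπ M q).nonunits :=
    (s44dn_VR O hπ M q).mem_nonunits_iff.2
      (((s44dn_VR O hπ M q).mem_principalUnitGroup_iff ε).1 hε)
  have hεE : algebraMap ↥(lg_F L M) ↥(lg_F L (M * q)) (ε : ↥(lg_F L M)) ∈ s44dn_V1 O hπ M q :=
    (s44dn_mem_V1_iff O hπ M q _).2 hε1
  have hεEi : algebraMap ↥(lg_F L M) ↥(lg_F L (M * q)) ((ε : ↥(lg_F L M)))⁻¹ ∈
      s44dn_V1 O hπ M q := (s44dn_mem_V1_iff O hπ M q _).2 hε1i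
  have hredε : s44dn_red1 O hπ M q ⟨_, hεE⟩ = 1 := by
    refine s44dn_red_eq_one _ _ _ _ _ ⟨_, hεE⟩ ?_
    have := s44dn_nonunits_incl O hπ M q _ hεn
    rwa [map_sub, map_one] at this
  -- `x`
  have hxE : algebraMap ↥(lg_F L M) ↥(lg_F L (M * q)) (x : ↥(lg_F L M)) ∈ s44dn_V1 O hπ M q := by
    have h1 : algebraMap ↥(lg_F L M) ↥(lg_F L (M * q)) (x : ↥(lg_F L M)) =
        algebraMap ↥(lg_F L M) ↥(lg_F L (M * q))
          (Algebra.norm ↥(lg_F L M) (w : ↥(lg_F L (M * q)))) *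
        algebraMap ↥(lg_F L M) ↥(lg_F L (M * q)) ((ε : ↥(lg_F L M)))⁻¹ := by
      rw [← map_mul, ← hNval, mul_assoc, mul_inv_cancel₀ ε.ne_zero, mul_one]
    rw [h1]
    exact (s44dn_V1 O hπ M q).mul_mem _ _ hN hεEi
  have hredx : s44dn_red1 O hπ M q ⟨_, hxE⟩ = s44dn_red1 O hπ M q ⟨_, hN⟩ := by
    have h1 : (⟨_, hN⟩ : ↥(s44dn_V1 O hπ M q)) = ⟨_, hxE⟩ * ⟨_, hεE⟩ := by
      apply Subtype.ext
      show algebraMap ↥(lg_F L M) ↥(lg_F L (M * q)) _ = algebraMap ↥(lg_F L M) ↥(lg_F L (M * q)) _ *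
        algebraMap ↥(lg_F L M) ↥(lg_F L (M * q)) _
      rw [← map_mul, hNval]
    rw [h1, map_mul, hredε, mul_one]
  -- `x = c0 g0^q`
  set c0 : L := c * (π : L) ^ (m * (q : ℤ)) with hc0
  have hx' : (x : ↥(lg_F L M)) = algebraMap L ↥(lg_F L M) c0 * g0 ^ q := by
    rw [ex, eg', mul_pow, hc0, map_mul, map_zpow₀, zpow_mul, zpow_natCast]
    ring
  have hg0E : algebraMap ↥(lg_F L M) ↥(lg_F L (M * q)) g0 ∈ s44dn_V1 O hπ M q :=
    (s44dn_mem_V1_iff O hπ M q _).2 hg0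
  have hg0Ei : algebraMap ↥(lg_F L M) ↥(lg_F L (M * q)) g0⁻¹ ∈ s44dn_V1 O hπ M q :=
    (s44dn_mem_V1_iff O hπ M q _).2 hg0i
  have hxE' : algebraMap ↥(lg_F L M) ↥(lg_F L (M * q)) (x : ↥(lg_F L M)) =
      algebraMap L ↥(lg_F L (M * q)) c0 *
        (algebraMap ↥(lg_F L M) ↥(lg_F L (M * q)) g0) ^ q := by
    rw [hx', map_mul, map_pow]
    congr 1
  have hc0E : algebraMap L ↥(lg_F L (M * q)) c0 ∈ s44dn_V1 O hπ M q := by
    have h1 : algebraMap L ↥(lg_F L (M * q)) c0 =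
        algebraMap ↥(lg_F L M) ↥(lg_F L (M * q)) (x : ↥(lg_F L M)) *
          (algebraMap ↥(lg_F L M) ↥(lg_F L (M * q)) g0⁻¹) ^ q := by
      rw [hxE', map_inv₀, inv_pow, mul_assoc, mul_inv_cancel₀, mul_one]
      exact pow_ne_zero _ ((map_ne_zero _).2 hg00)
    rw [h1]
    exact (s44dn_V1 O hπ M q).mul_mem _ _ hxE ((s44dn_V1 O hπ M q).pow_mem hg0Ei q)
  have hc0O : c0 ∈ O := s44dn_const_mem O hπ _ _ c0 hc0E
  obtain ⟨hob, eo⟩ := s44dn_red_const O hπ (lg_F L (M * q)) (rdn_gf_le_quotField O (M * q))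
    ⟨c0, hc0O⟩
  obtain ⟨g4, h4, h0, hWg, e1, e2⟩ := s44dn_W_red_pow O hπ M q hqM g0 hg0
  obtain ⟨o1, ho1⟩ := residue_surjective
    ((frobeniusEquiv (ResidueField O) q).symm (residue O ⟨c0, hc0O⟩))
  obtain ⟨ho1b, eo1⟩ := s44dn_red_const O hπ (lg_F L (M * q)) (rdn_gf_le_quotField O (M * q)) o1
  have hredx' : s44dn_red1 O hπ M q ⟨_, hxE⟩ =
      s44dn_red1 O hπ M q ⟨_, hob⟩ * s44dn_red1 O hπ M q ⟨_, h0⟩ ^ q := by
    rw [← map_pow, ← map_mul]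
    congr 1
    exact Subtype.ext hxE'
  -- the candidate
  set Y : ↥(s44dn_V1 O hπ M q) := ⟨_, ho1b⟩ * ⟨_, h4⟩ ^ q with hY
  have hYred : s44dn_red1 O hπ M q Y =
      s44dn_red1 O hπ M q ⟨_, ho1b⟩ * s44dn_red1 O hπ M q ⟨_, hWg⟩ := by
    rw [hY, map_mul, map_pow, e1]
  have hFr : coeffMap (frobenius (ResidueField O) q) (s44dn_red1 O hπ M q ⟨_, hw2'⟩) =
      coeffMap (frobenius (ResidueField O) q) (s44dn_red1 O hπ M q Y) := by
    rw [hYred, map_mul (coeffMap (frobenius (ResidueField O) q)), e2, eo1, s44dn_frob_const, ho1,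
      frobeniusEquiv_symm_pow_p, ← eo, ← hredx', hredx, eN]
  have hinj : Function.Injective (coeffMap (frobenius (ResidueField O) q)) :=
    RingHom.injective _
  have hredY := hinj hFr
  have hY0 : s44dn_red1 O hπ M q Y ≠ 0 := hredY ▸ hredW0
  have hYE0 : (Y : ↥(lg_F L (M * q))) ≠ 0 := by
    intro h
    apply hY0
    have : Y = 0 := Subtype.ext h
    rw [this, map_zero]
  have hfin := s44dn_sub_one_mem_of_red_eq _ _ _ _ _ ⟨_, hw2'⟩ Y hredY hY0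
  refine Subgroup.mem_sup.2 ⟨Units.mk0 (Y : ↥(lg_F L (M * q))) hYE0, ?_,
    s44dn_Wu (rdn_gf_W L M q hqM) w * (Units.mk0 (Y : ↥(lg_F L (M * q))) hYE0)⁻¹, ?_, ?_⟩
  · exact s44dn_mem_P_of_eq (o1 : L) (algebraMap ↥(lg_F L M) ↥(lg_F L (M * q)) g4) rfl
  · exact (ValuationSubring.mem_principalUnitGroup_iff _ _).2
      ((s44dn_V1 O hπ M q).mem_nonunits_iff.1 hfin)
  · exact (mul_left_comm _ _ _).trans (by rw [mul_inv_cancel, mul_one])

include hπ in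
/-- **[DICH-HALF]**: one norm condition transports depth `≥ 1` from `w_∞` (the Gauss valuation) to
`w_0 = w_∞ ∘ W`. -/
theorem s44dn_half [PerfectRing (ResidueField O) q] (f : ↥(lg_F L (M * q))) (hf : f ≠ 0)
    (hNα : letI := ssm_gi_algebra (ssm_al_F_le L M q)
      ∃ (c : L) (g : ↥(lg_F L M)),
        Algebra.norm ↥(lg_F L M) f = algebraMap L ↥(lg_F L M) c * g ^ q)
    (h1 : s44dn_Depth O M q π 1 f) :
    s44dn_Depth O M q π 1 (rdn_gf_W L M q hqM f) := by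
  letI := ssm_gi_algebraV (ssm_al_F_le L M q) (s44dn_VR O hπ M q)
  haveI := ssm_gi_isScalarTower (ssm_al_F_le L M q) (s44dn_VR O hπ M q)
  haveI := ssm_gi_isScalarTower_base (L := L) (ssm_al_F_le L M q)
  have hrank : Module.finrank ↥(lg_F L M) ↥(lg_F L (M * q)) = q + 1 := by
    have := ssm_al_relfinrank L M q hq.out hqM
    rwa [IntermediateField.relfinrank_eq_finrank_of_le (ssm_al_F_le L M q)] at this
  haveI : FiniteDimensional ↥(lg_F L M) ↥(lg_F L (M * q)) := ssm_gi_finiteDimensional hrank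
  haveI : Algebra.IsSeparable ↥(lg_F L M) ↥(lg_F L (M * q)) := ssm_gi_isSeparable
  have D := rdn_gf_data O hπ M q hqM
  set W := rdn_gf_W L M q hqM with hW
  set ϖ := gq_unif π hπ.ne_zero hπ.maximalIdeal_eq (lg_F L M)
    ((ssm_al_F_le L M q).trans (rdn_gf_le_quotField O (M * q))) with hϖ
  have hϖirr : Irreducible ϖ := ssm_ga_unif_irreducible π hπ.ne_zero hπ.maximalIdeal_eq _ _
  have hϖE : algebraMap _ ↥(lg_F L (M * q)) ϖ = algebraMap L ↥(lg_F L (M * q)) (π : L) := rfl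
  have hϖK : algebraMap _ ↥(lg_F L M) ϖ = algebraMap L ↥(lg_F L M) (π : L) := rfl
  have hWϖ : W (algebraMap _ ↥(lg_F L (M * q)) ϖ) = algebraMap _ ↥(lg_F L (M * q)) ϖ := by
    rw [hϖE]
    exact (ssm_al_W L M q hq.out hqM).commutes _
  have hπL0 : (π : L) ≠ 0 := fun h => hπ.ne_zero (Subtype.ext h)
  -- the subgroups
  set P := s44dn_P L (E := ↥(lg_F L (M * q))) q with hP
  set P' := s44dn_P L (E := ↥(lg_F L M)) q with hP'
  set U := (s44dn_V1 O hπ M q).principalUnitGroup with hU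
  set UR := (s44dn_VR O hπ M q).principalUnitGroup with hUR
  have hNP : ∀ x ∈ P, Units.map (Algebra.norm ↥(lg_F L M) :
      ↥(lg_F L (M * q)) →* ↥(lg_F L M)) x ∈ P' := by
    rintro _ ⟨c, g, rfl⟩
    refine ⟨c ^ (q + 1), Units.map (Algebra.norm ↥(lg_F L M) :
      ↥(lg_F L (M * q)) →* ↥(lg_F L M)) g, ?_⟩
    rw [map_mul, map_pow, map_pow]
    congr 1
    apply Units.ext
    show Algebra.norm ↥(lg_F L M) (algebraMap L ↥(lg_F L (M * q)) (c : L)) =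
      algebraMap L ↥(lg_F L M) (c : L) ^ (q + 1)
    rw [IsScalarTower.algebraMap_apply L ↥(lg_F L M) ↥(lg_F L (M * q)) (c : L),
      Algebra.norm_algebraMap, hrank]
  have hWP : ∀ x ∈ P, s44dn_Wu W x ∈ P := by
    rintro _ ⟨c, g, rfl⟩
    refine ⟨c, s44dn_Wu W g, ?_⟩
    rw [map_mul, map_pow]
    congr 1
    apply Units.ext
    exact (ssm_al_W L M q hq.out hqM).commutes _
  have hu1 : ∀ a : ↥(lg_F L (M * q)), a ∈ (s44dn_V1 O hπ M q).nonunits ↔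
      ∃ b ∈ s44dn_V1 O hπ M q, a = algebraMap L ↥(lg_F L (M * q)) (π : L) * b := fun a =>
    s44dn_gauss_unif π hπ.ne_zero hπ.maximalIdeal_eq (lg_F L (M * q))
      (rdn_gf_le_quotField O (M * q)) a
  have huR : ∀ a : ↥(lg_F L M), a ∈ (s44dn_VR O hπ M q).nonunits ↔
      ∃ b ∈ s44dn_VR O hπ M q, a = algebraMap L ↥(lg_F L M) (π : L) * b := fun a =>
    s44dn_gauss_unif π hπ.ne_zero hπ.maximalIdeal_eq (lg_F L M)
      ((ssm_al_F_le L M q).trans (rdn_gf_le_quotField O (M * q))) a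
  -- unpack the depth hypothesis
  obtain ⟨c1, g1, b, hc1, hg1, hb, e⟩ := h1
  have hρ0 : algebraMap L ↥(lg_F L (M * q)) c1 * g1 ^ q ≠ 0 :=
    mul_ne_zero ((map_ne_zero _).2 hc1) (pow_ne_zero _ hg1)
  have hu0 : (1 + algebraMap L ↥(lg_F L (M * q)) (π : L) ^ 1 * b : ↥(lg_F L (M * q))) ≠ 0 := by
    intro h0
    rw [h0, mul_zero] at e
    exact hf e
  set ρ : (↥(lg_F L (M * q)))ˣ := Units.mk0 _ hρ0 with hρdef
  set u : (↥(lg_F L (M * q)))ˣ := Units.mk0 _ hu0 with hudef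
  have hρ : ρ ∈ P := s44dn_mem_P_of_eq c1 g1 rfl
  have hfu : Units.mk0 f hf = ρ * u := Units.ext e
  have hu : u ∈ U := (s44dn_mem_principalUnitGroup_iff _ _ hu1 u).2
    ⟨b, (gq_mem_valSubOf _ _ _ _ _ _).2 hb, by rw [hudef, Units.val_mk0, pow_one]⟩
  -- the norm of `u`
  have hNfu : Units.map (Algebra.norm ↥(lg_F L M) : ↥(lg_F L (M * q)) →* ↥(lg_F L M))
      (Units.mk0 f hf) ∈ P' := by
    obtain ⟨c, g, e⟩ := hNα
    exact s44dn_mem_P_of_eq c g e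
  have hNu : Units.map (Algebra.norm ↥(lg_F L M) : ↥(lg_F L (M * q)) →* ↥(lg_F L M)) u ∈ P' := by
    have h2 : u = ρ⁻¹ * Units.mk0 f hf := by rw [hfu, inv_mul_cancel_left]
    rw [h2, map_mul, map_inv]
    exact P'.mul_mem (P'.inv_mem (hNP ρ hρ)) hNfu
  -- step 1: `W u = π ^ n a'`
  have hWu0 : W (u : ↥(lg_F L (M * q))) ≠ 0 := (map_ne_zero W).2 u.ne_zero
  obtain ⟨n, a', ha', ha'i, e1⟩ := s44dn_exists_zpow_unit π hπ.ne_zero hπ.maximalIdeal_eq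
    (lg_F L (M * q)) (rdn_gf_le_quotField O (M * q)) (W (u : ↥(lg_F L (M * q)))) hWu0
  have e1' : W (u : ↥(lg_F L (M * q))) = algebraMap L ↥(lg_F L (M * q)) (π : L) ^ n * a' := e1
  have ha'0 : a' ≠ 0 := by
    rintro rfl
    rw [mul_zero] at e1'
    exact hWu0 e1'
  set a'u : (↥(lg_F L (M * q)))ˣ := Units.mk0 a' ha'0 with ha'udef
  have ha'U : a'u ∈ (s44dn_V1 O hπ M q).unitGroup :=
    (s44dn_mem_unitGroup_iff _ a'u).2 ⟨ha', ha'i⟩
  set πu : (↥(lg_F L (M * q)))ˣ :=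
    Units.mk0 (algebraMap L ↥(lg_F L (M * q)) (π : L)) ((map_ne_zero _).2 hπL0) with hπudef
  have hWu : s44dn_Wu W u = πu ^ n * a'u := by
    apply Units.ext
    rw [s44dn_Wu_coe, e1', Units.val_mul, Units.val_zpow_eq_zpow_val]
    rfl
  have hπP : πu ∈ P := s44dn_mem_P_of_eq (π : L) 1 (by rw [one_pow, mul_one]; rfl)
  -- step 2: `τ`
  obtain ⟨τ, hτ0, ⟨b1, hb1, et1⟩, ⟨b2, hb2, et2⟩, ⟨r, et3⟩⟩ := s44dn_exists_tau D ϖ hϖirr hWϖ
  set τu : (↥(lg_F L (M * q)))ˣ := Units.mk0 τ hτ0 with hτudef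
  have hτU : τu ∈ U := (s44dn_mem_principalUnitGroup_iff _ _ hu1 τu).2 ⟨b1, hb1, et1⟩
  have hWτ : s44dn_Wu W τu * πu ∈ U :=
    (s44dn_mem_principalUnitGroup_iff _ _ hu1 _).2 ⟨b2, hb2, et2⟩
  have hWτP : s44dn_Wu W τu ∈ P ⊔ U := by
    have h2 : s44dn_Wu W τu = (s44dn_Wu W τu * πu) * πu⁻¹ := by rw [mul_inv_cancel_right]
    rw [h2]
    exact (P ⊔ U).mul_mem (Subgroup.mem_sup_right hWτ) (Subgroup.mem_sup_left (P.inv_mem hπP))
  -- the norm of `τ`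
  set πKu : (↥(lg_F L M))ˣ :=
    Units.mk0 (algebraMap L ↥(lg_F L M) (π : L)) ((map_ne_zero _).2 hπL0) with hπKudef
  have et3' : Algebra.norm ↥(lg_F L M) τ * algebraMap L ↥(lg_F L M) (π : L) ^ q =
      algebraMap _ ↥(lg_F L M) (1 + ϖ * r) := by
    rw [← hϖK]
    exact et3
  have hεr0 : algebraMap _ ↥(lg_F L M) (1 + ϖ * r) ≠ 0 := by
    rw [← et3']
    exact mul_ne_zero ((Algebra.norm_ne_zero_iff).2 hτ0) (pow_ne_zero _ ((map_ne_zero _).2 hπL0))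
  set εr : (↥(lg_F L M))ˣ := Units.mk0 _ hεr0 with hεrdef
  have hεrU : εr ∈ UR := by
    refine (s44dn_mem_principalUnitGroup_iff _ _ huR εr).2 ⟨(r : ↥(lg_F L M)), r.2, ?_⟩
    rw [hεrdef, Units.val_mk0, map_add, map_one, map_mul, hϖK]
    rfl
  have hNτ : Units.map (Algebra.norm ↥(lg_F L M) : ↥(lg_F L (M * q)) →* ↥(lg_F L M)) τu ∈
      P' ⊔ UR := by
    have h2 : Units.map (Algebra.norm ↥(lg_F L M) : ↥(lg_F L (M * q)) →* ↥(lg_F L M)) τu =
        εr * (πKu ^ q)⁻¹ := by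
      rw [eq_mul_inv_iff_mul_eq]
      exact Units.ext et3'
    rw [h2]
    refine (P' ⊔ UR).mul_mem (Subgroup.mem_sup_right hεrU)
      (Subgroup.mem_sup_left (P'.inv_mem ?_))
    exact s44dn_mem_P_of_eq 1 (algebraMap L ↥(lg_F L M) (π : L))
      (by rw [map_one, one_mul, Units.val_pow_eq_pow_val]; rfl)
  -- step 3: `u₂ := u τ ^ n`
  set u₂ : (↥(lg_F L (M * q)))ˣ := u * τu ^ n with hu₂def
  have hu₂ : u₂ ∈ U := U.mul_mem hu (U.zpow_mem hτU n)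
  have hWu₂ : s44dn_Wu W u₂ = a'u * (s44dn_Wu W τu * πu) ^ n := by
    rw [hu₂def, map_mul, map_zpow, hWu, mul_zpow, mul_comm (πu ^ n) a'u, mul_assoc,
      mul_comm (πu ^ n)]
  have hWu₂U : s44dn_Wu W u₂ ∈ (s44dn_V1 O hπ M q).unitGroup := by
    rw [hWu₂]
    exact mul_mem ha'U ((s44dn_V1 O hπ M q).principal_units_le_units (U.zpow_mem hWτ n))
  have hNu₂ : Units.map (Algebra.norm ↥(lg_F L M) : ↥(lg_F L (M * q)) →* ↥(lg_F L M)) u₂ ∈
      P' ⊔ UR := by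
    rw [hu₂def, map_mul, map_zpow]
    exact (P' ⊔ UR).mul_mem (Subgroup.mem_sup_left hNu) ((P' ⊔ UR).zpow_mem hNτ n)
  -- step 4: the core
  have key := s44dn_half_core O hπ M q hqM u₂ hu₂ hWu₂U hNu₂
  -- step 5: back to `u`, then to `f`
  have hWuPU : s44dn_Wu W u ∈ P ⊔ U := by
    have h2 : u = u₂ * (τu ^ n)⁻¹ := by rw [hu₂def, mul_inv_cancel_right]
    rw [h2, map_mul, map_inv, map_zpow]
    exact (P ⊔ U).mul_mem key ((P ⊔ U).inv_mem ((P ⊔ U).zpow_mem hWτP n))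
  have hWf : s44dn_Wu W (Units.mk0 f hf) ∈ P ⊔ U := by
    rw [hfu, map_mul]
    exact (P ⊔ U).mul_mem (Subgroup.mem_sup_left (hWP ρ hρ)) hWuPU
  obtain ⟨ρ', hρ', ε', hε', efin⟩ := Subgroup.mem_sup.1 hWf
  obtain ⟨c', g', hc', hg', eρ'⟩ := s44dn_exists_of_mem_P hρ'
  obtain ⟨b', hb', eε'⟩ := (s44dn_mem_principalUnitGroup_iff _ _ hu1 ε').1 hε'
  refine ⟨c', g', b', hc', hg', (gq_mem_valSubOf _ _ _ _ _ _).1 hb', ?_⟩
  have h3 : W f = (ρ' : ↥(lg_F L (M * q))) * (ε' : ↥(lg_F L (M * q))) := by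
    rw [← Units.val_mul, efin]
    rfl
  rw [h3, eρ', eε', pow_one]

include hπ in
/-- **[DICH-HALF]**, the twin: depth `≥ 1` of `W f` and `N_α (W f) = c g^q` (i.e. `N_β f`) give depth
`≥ 1` of `f`. -/
theorem s44dn_half_W [PerfectRing (ResidueField O) q] (f : ↥(lg_F L (M * q))) (hf : f ≠ 0)
    (hNβ : letI := ssm_gi_algebra (ssm_al_F_le L M q)
      ∃ (c : L) (g : ↥(lg_F L M)),
        Algebra.norm ↥(lg_F L M) (rdn_gf_W L M q hqM f) = algebraMap L ↥(lg_F L M) c * g ^ q)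
    (h1W : s44dn_Depth O M q π 1 (rdn_gf_W L M q hqM f)) :
    s44dn_Depth O M q π 1 f := by
  have h := s44dn_half O hπ M q hqM (rdn_gf_W L M q hqM f)
    ((map_ne_zero (rdn_gf_W L M q hqM)).2 hf) hNβ h1W
  have hWW : rdn_gf_W L M q hqM (rdn_gf_W L M q hqM f) = f := ssm_al_W_W L M q hq.out hqM f
  rwa [hWW] at h

end Tower

end Fermat.Agent.S44
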