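/-
S44, cell [D1] DICH-NF (owner helper14), SUB (a) (helper2).  Prefix `s44dt_`.

THE TRANSPORT LEMMA: the two-sided dichotomy `s44d_dich` (helper29, S44/Dich/Main.lean) needs TWO
structures `R₁ → S`, `R₂ → S` on the Dedekind domain `S` (the degeneracy maps `α`, `β`).  In the
application the second one is the first one transported by the Atkin–Lehner automorphism `W` of
`S` (which swaps the two primes `v0`, `vi`).  `s44dt_dich_of_aut` takes ONE structure and `W` and
hides the second algebra structure completely (private type copies inside this file).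
-/
import Mathlib
import Fermat.Agent.S44.Dich.Main

set_option autoImplicit false
set_option linter.unusedSectionVars false
set_option linter.style.haveILetI false

namespace Fermat.Agent.S44

open IsDedekindDomain WithZero

/-- a private copy of a commutative ring -/
def s44dt_CpR (α : Type*) : Type _ := α

instance s44dt_CpR_commRing (α : Type*) [CommRing α] : CommRing (s44dt_CpR α) :=
  inferInstanceAs (CommRing α)

/-- a private copy of a field -/
def s44dt_CpF (α : Type*) : Type _ := α

instance s44dt_CpF_field (α : Type*) [Field α] : Field (s44dt_CpF α) :=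
  inferInstanceAs (Field α)

/-- the identity, as a ring isomorphism onto the copy -/
def s44dt_toR (α : Type*) [CommRing α] : α ≃+* s44dt_CpR α := RingEquiv.refl α

/-- the identity, as a ring isomorphism onto the copy -/
def s44dt_toF (α : Type*) [Field α] : α ≃+* s44dt_CpF α := RingEquiv.refl α

section Transport

variable {R S F' F : Type*} [CommRing R] [CommRing S] [IsDedekindDomain S] [Algebra R S]
  [Module.Free R S] [Module.Finite R S]
  [Field F'] [Field F] [Algebra S F] [IsFractionRing S F]
  [Algebra R F'] [Algebra F' F] [Algebra R F] [IsScalarTower R S F] [IsScalarTower R F' F]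
  {π : R} {v0 vi : HeightOneSpectrum S}

/-- **[DICH] for one structure and an automorphism swapping the two primes.** -/
theorem s44dt_dich_of_aut (hne : v0 ≠ vi) (hall : ∀ v : HeightOneSpectrum S, v = v0 ∨ v = vi)
    (hmap : Ideal.span {algebraMap R S π} = v0.asIdeal * vi.asIdeal)
    (htr : ∀ s : S, algebraMap R S (Algebra.trace R S s) - s ∈ vi.asIdeal)
    (N : F →* F')
    (hN : ∀ s : S, N (algebraMap S F s) = algebraMap R F' (Algebra.norm R s))
    (W : S ≃+* S) (WF : F ≃+* F)
    (hWF : ∀ s : S, WF (algebraMap S F s) = algebraMap S F (W s))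
    (hW0 : ∀ s : S, s ∈ v0.asIdeal ↔ W s ∈ vi.asIdeal)
    (hWi : ∀ s : S, s ∈ vi.asIdeal ↔ W s ∈ v0.asIdeal)
    (P : Subgroup Fˣ) (P' : Subgroup F'ˣ)
    (hPP' : ∀ x ∈ P', Units.map (algebraMap F' F : F' →* F) x ∈ P)
    (hNP : ∀ x ∈ P, Units.map N x ∈ P')
    (hPW : ∀ x ∈ P, Units.map (WF : F →* F) x ∈ P)
    (hPW' : ∀ x ∈ P, Units.map (WF.symm : F →* F) x ∈ P)
    (f : Fˣ) (hNf : Units.map N f ∈ P')
    (hNWf : Units.map N (Units.map (WF.symm : F →* F) f) ∈ P')
    (h0 : f ∈ P ⊔ s44d_U (v0.valuation F) (exp (-((1 : ℕ) : ℤ))))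
    (hi : f ∈ P ⊔ s44d_U (vi.valuation F) (exp (-((1 : ℕ) : ℤ)))) :
    ∀ n : ℕ, 1 ≤ n → f ∈ P ⊔ s44d_U (v0.valuation F) (exp (-(n : ℤ))) ∧
      f ∈ P ⊔ s44d_U (vi.valuation F) (exp (-(n : ℤ))) := by
  -- the second structure
  letI a1 : Algebra (s44dt_CpR R) S :=
    ((W : S →+* S).comp ((algebraMap R S).comp ((s44dt_toR R).symm : s44dt_CpR R →+* R))).toAlgebra
  letI a2 : Algebra (s44dt_CpR R) (s44dt_CpF F') :=
    (((s44dt_toF F') : F' →+* s44dt_CpF F').comp
      ((algebraMap R F').comp ((s44dt_toR R).symm : s44dt_CpR R →+* R))).toAlgebra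
  letI a3 : Algebra (s44dt_CpF F') F :=
    ((WF : F →+* F).comp ((algebraMap F' F).comp
      ((s44dt_toF F').symm : s44dt_CpF F' →+* F'))).toAlgebra
  letI a4 : Algebra (s44dt_CpR R) F :=
    ((algebraMap S F).comp (algebraMap (s44dt_CpR R) S)).toAlgebra
  have ha1 : ∀ r : s44dt_CpR R,
      algebraMap (s44dt_CpR R) S r = W (algebraMap R S ((s44dt_toR R).symm r)) := fun _ => rfl
  have ha2 : ∀ r : s44dt_CpR R, algebraMap (s44dt_CpR R) (s44dt_CpF F') r =
      s44dt_toF F' (algebraMap R F' ((s44dt_toR R).symm r)) := fun _ => rfl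
  have ha3 : ∀ x : s44dt_CpF F', algebraMap (s44dt_CpF F') F x =
      WF (algebraMap F' F ((s44dt_toF F').symm x)) := fun _ => rfl
  have ha4 : ∀ r : s44dt_CpR R,
      algebraMap (s44dt_CpR R) F r = algebraMap S F (algebraMap (s44dt_CpR R) S r) := fun _ => rfl
  haveI t1 : IsScalarTower (s44dt_CpR R) S F := IsScalarTower.of_algebraMap_eq fun r => ha4 r
  haveI t2 : IsScalarTower (s44dt_CpR R) (s44dt_CpF F') F := by
    refine IsScalarTower.of_algebraMap_eq fun r => ?_
    rw [ha4, ha1, ha3, ha2, RingEquiv.symm_apply_apply, ← hWF,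
      ← IsScalarTower.algebraMap_apply R S F, ← IsScalarTower.algebraMap_apply R F' F]
  have he : RingHom.comp (algebraMap (s44dt_CpR R) S) ((s44dt_toR R : R ≃+* s44dt_CpR R) : R →+* s44dt_CpR R) =
      RingHom.comp (W : S →+* S) (algebraMap R S) := by
    ext r
    simp only [RingHom.comp_apply, RingHom.coe_coe, ha1, RingEquiv.symm_apply_apply]
  haveI f1 : Module.Finite (s44dt_CpR R) S := Module.Finite.of_equiv_equiv (s44dt_toR R) W he
  haveI f2 : Module.Free (s44dt_CpR R) S := by
    letI : RingHomInvPair ((s44dt_toR R : R ≃+* s44dt_CpR R) : R →+* s44dt_CpR R)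
        (((s44dt_toR R).symm : s44dt_CpR R ≃+* R) : s44dt_CpR R →+* R) :=
      RingHomInvPair.of_ringEquiv (s44dt_toR R)
    letI : RingHomInvPair (((s44dt_toR R).symm : s44dt_CpR R ≃+* R) : s44dt_CpR R →+* R)
        ((s44dt_toR R : R ≃+* s44dt_CpR R) : R →+* s44dt_CpR R) :=
      RingHomInvPair.symm _ _
    let e₂ : S ≃ₛₗ[((s44dt_toR R : R ≃+* s44dt_CpR R) : R →+* s44dt_CpR R)] S :=
      { W.toAddEquiv with
        map_smul' := fun r s => by
          show W (r • s) = (s44dt_toR R r) • W s
          rw [Algebra.smul_def, Algebra.smul_def, map_mul, ha1, RingEquiv.symm_apply_apply] }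
    exact Module.Free.of_equiv e₂
  -- trace and norm of the second structure
  have htr2 : ∀ s : S, algebraMap (s44dt_CpR R) S (Algebra.trace (s44dt_CpR R) S s) - s ∈
      v0.asIdeal := by
    intro s
    have h1 := Algebra.trace_eq_of_equiv_equiv (s44dt_toR R) W he (W.symm s)
    rw [RingEquiv.apply_symm_apply] at h1
    have h2 : algebraMap (s44dt_CpR R) S (Algebra.trace (s44dt_CpR R) S s) - s =
        W (algebraMap R S (Algebra.trace R S (W.symm s)) - W.symm s) := by
      rw [map_sub, RingEquiv.apply_symm_apply, ha1, h1]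
    rw [h2, ← hWi]
    exact htr _
  have hnorm2 : ∀ s : S, (s44dt_toR R).symm (Algebra.norm (s44dt_CpR R) s) =
      Algebra.norm R (W.symm s) := by
    intro s
    have h1 := Algebra.norm_eq_of_equiv_equiv (s44dt_toR R) W he (W.symm s)
    rw [RingEquiv.apply_symm_apply] at h1
    exact h1.symm
  have hmap2 : Ideal.span {algebraMap (s44dt_CpR R) S (s44dt_toR R π)} =
      vi.asIdeal * v0.asIdeal := by
    rw [ha1, RingEquiv.symm_apply_apply]
    have h1 : Ideal.span {W (algebraMap R S π)} =
        (Ideal.span {algebraMap R S π}).map (W : S →+* S) := by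
      rw [Ideal.map_span, Set.image_singleton]
      rfl
    have h2 : v0.asIdeal.map (W : S →+* S) = vi.asIdeal := by
      ext s
      constructor
      · intro hs
        obtain ⟨t, ht, rfl⟩ := (Ideal.mem_map_iff_of_surjective (W : S →+* S) W.surjective).1 hs
        exact (hW0 t).1 ht
      · intro hs
        refine (Ideal.mem_map_iff_of_surjective (W : S →+* S) W.surjective).2
          ⟨W.symm s, (hW0 _).2 (by rwa [RingEquiv.apply_symm_apply]), ?_⟩
        exact W.apply_symm_apply s
    have h3 : vi.asIdeal.map (W : S →+* S) = v0.asIdeal := by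
      ext s
      constructor
      · intro hs
        obtain ⟨t, ht, rfl⟩ := (Ideal.mem_map_iff_of_surjective (W : S →+* S) W.surjective).1 hs
        exact (hWi t).1 ht
      · intro hs
        refine (Ideal.mem_map_iff_of_surjective (W : S →+* S) W.surjective).2
          ⟨W.symm s, (hWi _).2 (by rwa [RingEquiv.apply_symm_apply]), ?_⟩
        exact W.apply_symm_apply s
    rw [h1, hmap, Ideal.map_mul, h2, h3]
  -- the second norm
  let N2 : F →* s44dt_CpF F' :=
    ((s44dt_toF F' : F' →* s44dt_CpF F').comp N).comp (WF.symm : F →* F)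
  have hN2 : ∀ s : S, N2 (algebraMap S F s) =
      algebraMap (s44dt_CpR R) (s44dt_CpF F') (Algebra.norm (s44dt_CpR R) s) := by
    intro s
    have h1 : WF.symm (algebraMap S F s) = algebraMap S F (W.symm s) := by
      rw [RingEquiv.symm_apply_eq, hWF, RingEquiv.apply_symm_apply]
    show s44dt_toF F' (N (WF.symm (algebraMap S F s))) = _
    rw [h1, hN, ha2, hnorm2]
  let P2 : Subgroup (s44dt_CpF F')ˣ := P'.map (Units.map (s44dt_toF F' : F' →* s44dt_CpF F'))
  refine s44d_dich (R₁ := R) (R₂ := s44dt_CpR R) (F'₁ := F') (F'₂ := s44dt_CpF F')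
    (π₁ := π) (π₂ := s44dt_toR R π) hne hall hmap htr N hN hmap2 htr2 N2 hN2 P P' P2 hPP' hNP
    ?_ ?_ f hNf ?_ h0 hi
  · rintro x ⟨y, hy, rfl⟩
    have h1 := hPW _ (hPP' y hy)
    have h2 : Units.map (algebraMap (s44dt_CpF F') F : s44dt_CpF F' →* F)
        (Units.map (s44dt_toF F' : F' →* s44dt_CpF F') y) =
        Units.map (WF : F →* F) (Units.map (algebraMap F' F : F' →* F) y) := by
      apply Units.ext
      show algebraMap (s44dt_CpF F') F (s44dt_toF F' (y : F')) = WF (algebraMap F' F (y : F'))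
      rw [ha3, RingEquiv.symm_apply_apply]
    rw [h2]
    exact h1
  · intro x hx
    exact ⟨Units.map N (Units.map (WF.symm : F →* F) x), hNP _ (hPW' x hx), rfl⟩
  · exact ⟨Units.map N (Units.map (WF.symm : F →* F) f), hNWf, rfl⟩

end Transport

end Fermat.Agent.S44
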